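/-
S55 / 15-IDELE (helper73): semi-local idele modules at finite level, in Mathlib's `Rep ℤ G`
vocabulary.  No completions of number fields, no choice of places: the `q`-component of the idele
group of a finite Galois `L/ℚ` is the module coinduced from `(PadicAlgCl q)ˣ` along
`Gal(PadicAlgCl q/ℚ_q) → Gal(ℚbar/ℚ) → Gal(L/ℚ)`.
-/
import Mathlib
import Fermat.Prelude.Def_GaloisRep_CompletionBridge

set_option autoImplicit false

namespace Fermat.Agent.S55.Idele73.Basic

open CategoryTheory

/-- `ℚbar`. -/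
abbrev Qbar : Type := AlgebraicClosure ℚ

/-- the absolute Galois group of `ℚ`. -/
abbrev GQ : Type := Qbar ≃ₐ[ℚ] Qbar

instance isAlgebraicQbar : Algebra.IsAlgebraic ℚ Qbar := AlgebraicClosure.isAlgebraic ℚ
instance isAlgClosureQbar : IsAlgClosure ℚ Qbar := ⟨inferInstance, inferInstance⟩
instance normalQbar : Normal ℚ Qbar := IsAlgClosure.normal ℚ Qbar

section level

variable (L : IntermediateField ℚ Qbar) [Normal ℚ L]

/-- the Galois group of the level `L`. -/
abbrev GalL : Type := L ≃ₐ[ℚ] L

/-- restriction `Gal(ℚbar/ℚ) → Gal(L/ℚ)`. -/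
noncomputable def resL : GQ →* GalL L := AlgEquiv.restrictNormalHom L

lemma resL_apply (σ : GQ) (x : L) : ((resL L σ x : L) : Qbar) = σ (x : Qbar) :=
  AlgEquiv.restrictNormal_commutes σ L x

lemma resL_surjective : Function.Surjective (resL L) :=
  AlgEquiv.restrictNormalHom_surjective Qbar

end level

section local_

variable (q : ℕ) [Fact q.Prime]

/-- the local Galois group `Gal(PadicAlgCl q / ℚ_q)`. -/
abbrev Gq : Type := PadicAlgCl q ≃ₐ[ℚ_[q]] PadicAlgCl q

/-- the multiplicative group of `PadicAlgCl q` as a `Gal(PadicAlgCl q/ℚ_q)`-module. -/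
noncomputable abbrev localUnits : Rep ℤ (Gq q) := Rep.ofAlgebraAutOnUnits ℚ_[q] (PadicAlgCl q)

variable (L : IntermediateField ℚ Qbar) [Normal ℚ L]

/-- `Gal(PadicAlgCl q/ℚ_q) → Gal(L/ℚ)`. -/
noncomputable def locHom : Gq q →* GalL L := (resL L).comp (localGaloisToGlobal q)

/-- the embedding `L → PadicAlgCl q`. -/
noncomputable def iotaL : L →+* PadicAlgCl q :=
  (padicEmbedding q).toRingHom.comp L.val.toRingHom

lemma iotaL_apply (x : L) : iotaL q L x = padicEmbedding q (x : Qbar) := rfl

lemma iotaL_injective : Function.Injective (iotaL q L) := (iotaL q L).injective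

lemma iotaL_locHom (τ : Gq q) (x : L) : iotaL q L (locHom q L τ x) = τ (iotaL q L x) := by
  rw [iotaL_apply, iotaL_apply, locHom, MonoidHom.comp_apply, resL_apply,
    padicEmbedding_localGaloisToGlobal]

/-- the `q`-component of the idele group of `L` as a `Gal(L/ℚ)`-module:
functions `f : Gal(L/ℚ) → (PadicAlgCl q)ˣ` with `f (τ|_L * g) = τ (f g)`. -/
noncomputable abbrev Jq : Rep ℤ (GalL L) := Rep.coind (locHom q L) (localUnits q)

/-- the multiplicative group of `L` as a `Gal(L/ℚ)`-module. -/
noncomputable abbrev Lx : Rep ℤ (GalL L) := Rep.ofAlgebraAutOnUnits ℚ L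

/-- the local diagonal `Lˣ → (PadicAlgCl q)ˣ`, equivariant along `locHom`. -/
noncomputable def diagLoc : Rep.res (locHom q L) (Lx L) ⟶ localUnits q :=
  Rep.ofHom <| LinearMap.intertwiningMap_of_isIntertwiningMap
    (ρ := (Rep.res (locHom q L) (Lx L)).ρ) (σ := (localUnits q).ρ)
    (Units.map (iotaL q L).toMonoidHom).toAdditive.toIntLinearMap (fun τ x => by
      apply Additive.toMul.injective
      apply Units.ext
      exact iotaL_locHom q L τ (Additive.toMul x : Lˣ))

/-- the diagonal embedding `Lˣ → J_{L,q}`, `x ↦ (g ↦ ι (g x))`. -/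
noncomputable def diag : Lx L ⟶ Jq q L := Rep.resCoindToHom (locHom q L) (Lx L) (localUnits q) (diagLoc q L)

end local_

end Fermat.Agent.S55.Idele73.Basic
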