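/-
S55 / 15-IDELE (helper73): coinduction along `j ∘ ψ` with `ψ` surjective is coinduction along `j`
of the `ker ψ`-invariants.  Mathlib only.
-/
import Mathlib

set_option autoImplicit false

namespace Fermat.Agent.S55.Idele73.CoindSurj

open CategoryTheory

variable {k : Type} [CommRing k] {Γ Q G : Type} [Group Γ] [Group Q] [Group G]
variable (ψ : Γ →* Q) (j : Q →* G) (A : Rep.{0} k Γ) (B : Rep.{0} k Q)
variable (e : B.V →ₗ[k] A.V)

/-- `f ↦ e ∘ f`. -/
noncomputable def pushLin (he_eq : ∀ (τ : Γ) (b : B.V), e (B.ρ (ψ τ) b) = A.ρ τ (e b)) :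
    (Rep.coind j B).V →ₗ[k] (Rep.coind (j.comp ψ) A).V where
  toFun f := ⟨fun g => e (f.1 g), fun τ g => by
    change e (f.1 (j (ψ τ) * g)) = A.ρ τ (e (f.1 g))
    rw [f.2 (ψ τ) g, he_eq]⟩
  map_add' f f' := by
    apply Subtype.ext; funext g
    change e ((f + f').1 g) = e (f.1 g) + e (f'.1 g)
    rw [← map_add]; rfl
  map_smul' c f := by
    apply Subtype.ext; funext g
    change e ((c • f).1 g) = c • e (f.1 g)
    rw [← map_smul]; rfl

variable (he_eq : ∀ (τ : Γ) (b : B.V), e (B.ρ (ψ τ) b) = A.ρ τ (e b))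

lemma pushLin_apply (f : (Rep.coind j B).V) (g : G) :
    (pushLin ψ j A B e he_eq f).1 g = e (f.1 g) := rfl

include he_eq in
lemma pushLin_injective (he_inj : Function.Injective e) :
    Function.Injective (pushLin ψ j A B e he_eq) := by
  intro f f' h
  apply Subtype.ext; funext g
  apply he_inj
  have := congrArg (fun F => F.1 g) h
  exact this

lemma pushLin_surjective (hψ : Function.Surjective ψ) (he_inj : Function.Injective e)
    (he_range : ∀ a : A.V, (∀ n ∈ ψ.ker, A.ρ n a = a) → ∃ b, e b = a) :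
    Function.Surjective (pushLin ψ j A B e he_eq) := by
  intro F
  have hinv : ∀ g : G, ∃ b, e b = F.1 g := fun g => he_range _ (fun n hn => by
    have := F.2 n g
    rw [MonoidHom.comp_apply, MonoidHom.mem_ker.1 hn, map_one, one_mul] at this
    exact this.symm)
  choose f hf using hinv
  refine ⟨⟨f, fun q g => ?_⟩, ?_⟩
  · obtain ⟨τ, rfl⟩ := hψ q
    apply he_inj
    rw [hf, he_eq, hf]
    exact F.2 τ g
  · apply Subtype.ext; funext g
    exact hf g

/-- the isomorphism `Coind_j B ≅ Coind_{j ∘ ψ} A`. -/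
noncomputable def coindCompIso (hψ : Function.Surjective ψ) (he_inj : Function.Injective e)
    (he_range : ∀ a : A.V, (∀ n ∈ ψ.ker, A.ρ n a = a) → ∃ b, e b = a) :
    Rep.coind j B ≅ Rep.coind (j.comp ψ) A :=
  Rep.mkIso <| Representation.Equiv.mk
    (LinearEquiv.ofBijective (pushLin ψ j A B e he_eq)
      ⟨pushLin_injective ψ j A B e he_eq he_inj,
        pushLin_surjective ψ j A B e he_eq hψ he_inj he_range⟩)
    (fun g => by
      apply LinearMap.ext
      intro f
      apply Subtype.ext; funext g'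
      rfl)

lemma coindCompIso_hom_apply (hψ : Function.Surjective ψ) (he_inj : Function.Injective e)
    (he_range : ∀ a : A.V, (∀ n ∈ ψ.ker, A.ρ n a = a) → ∃ b, e b = a)
    (f : (Rep.coind j B).V) (g : G) :
    ((coindCompIso ψ j A B e he_eq hψ he_inj he_range).hom.hom f).1 g = e (f.1 g) := rfl

end Fermat.Agent.S55.Idele73.CoindSurj
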