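/-
S55 / 15-IDELE (helper73): the `q`-component `Jq q L` of the ideles of a finite Galois level `L/ℚ`
in terms of the FINITE local extension `E = ℚ_q(ι L)` (`= ProfinLoc80.localLevel q L`):
`Jq q L ≅ Coind_{jE} (Eˣ)` with `jE : Gal(E/ℚ_q) ↪ Gal(L/ℚ)` the (injective) restriction map.
-/
import Mathlib
import Fermat.Agent.S55.Idele73.Basic
import Fermat.Agent.S55.Idele73.CoindSurj
import Fermat.Agent.S55.ProfinLoc80.Decomp

set_option autoImplicit false

namespace Fermat.Agent.S55.Idele73.Local

open CategoryTheory Fermat.Agent.S55.Idele73.Basic Fermat.Agent.S55.ProfinLoc80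

variable (q : ℕ) [Fact q.Prime] (L : IntermediateField ℚ Qbar)

/-- the local level `E = ℚ_q(ι L)`. -/
noncomputable abbrev Elev : IntermediateField ℚ_[q] (PadicAlgCl q) := localLevel q L

instance normalPadicAlgCl : Normal ℚ_[q] (PadicAlgCl q) :=
  IsAlgClosure.normal ℚ_[q] (PadicAlgCl q)

instance normal_Elev [Normal ℚ L] : Normal ℚ_[q] (Elev q L) := by
  rw [IntermediateField.normal_iff_forall_map_le']
  intro σ
  rw [Elev, localLevel, IntermediateField.adjoin_map]
  apply IntermediateField.adjoin.mono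
  rintro _ ⟨_, ⟨x, hx, rfl⟩, rfl⟩
  refine ⟨localGaloisToGlobal q σ x, ?_, ?_⟩
  · have := resL_apply L (localGaloisToGlobal q σ) ⟨x, hx⟩
    rw [← this]
    exact (resL L (localGaloisToGlobal q σ) ⟨x, hx⟩).2
  · exact padicEmbedding_localGaloisToGlobal q σ x

instance finiteDimensional_Elev [FiniteDimensional ℚ L] : FiniteDimensional ℚ_[q] (Elev q L) := by
  have h := localLevel_toSubmodule q L
  -- the span of the image of a `ℚ`-basis
  let b := Module.finBasis ℚ L
  have hspan : Submodule.span ℚ_[q] (padicEmbedding q '' (L : Set Qbar)) =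
      Submodule.span ℚ_[q] (Set.range fun i => padicEmbedding q (b i : Qbar)) := by
    apply le_antisymm
    · rw [Submodule.span_le]
      rintro _ ⟨x, hx, rfl⟩
      have hx' := b.sum_repr ⟨x, hx⟩
      have : x = ∑ i, (b.repr ⟨x, hx⟩ i) • ((b i : L) : Qbar) := by
        have := congrArg (fun y : L => (y : Qbar)) hx'
        simp only [IntermediateField.coe_sum, IntermediateField.coe_smul] at this
        exact this.symm
      rw [this, map_sum]
      refine Submodule.sum_mem _ (fun i _ => ?_)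
      rw [map_rat_smul]
      have hmem : padicEmbedding q (b i : Qbar) ∈ Submodule.span ℚ_[q]
          (Set.range fun i => padicEmbedding q (b i : Qbar)) := Submodule.subset_span ⟨i, rfl⟩
      have := Submodule.smul_mem _ ((b.repr ⟨x, hx⟩ i : ℚ) : ℚ_[q]) hmem
      convert this using 1
      rw [Rat.smul_def, Algebra.smul_def, map_ratCast]
    · apply Submodule.span_mono
      rintro _ ⟨i, rfl⟩
      exact ⟨(b i : Qbar), (b i).2, rfl⟩
  have hfg : (Subalgebra.toSubmodule (Elev q L).toSubalgebra).FG := by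
    rw [h, hspan]
    exact Submodule.fg_span (Set.finite_range _)
  exact Module.Finite.iff_fg.2 hfg

section galois

variable [Normal ℚ L]

/-- `Gal(E/ℚ_q)`. -/
abbrev DE : Type := Elev q L ≃ₐ[ℚ_[q]] Elev q L

/-- restriction `Gal(PadicAlgCl q/ℚ_q) → Gal(E/ℚ_q)`. -/
noncomputable def resE : Gq q →* DE q L := AlgEquiv.restrictNormalHom (Elev q L)

lemma resE_surjective : Function.Surjective (resE q L) :=
  AlgEquiv.restrictNormalHom_surjective (PadicAlgCl q)

lemma resE_apply (τ : Gq q) (y : Elev q L) : ((resE q L τ y : Elev q L) : PadicAlgCl q) = τ y :=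
  AlgEquiv.restrictNormal_commutes τ (Elev q L) y

lemma ker_resE : (resE q L).ker = (Elev q L).fixingSubgroup :=
  IntermediateField.restrictNormalHom_ker (Elev q L)

lemma ker_locHom : (locHom q L).ker = (Elev q L).fixingSubgroup := by
  ext τ
  rw [MonoidHom.mem_ker, mem_fixingSubgroup_localLevel_iff, locHom, MonoidHom.comp_apply,
    IntermediateField.mem_fixingSubgroup_iff]
  constructor
  · intro h x hx
    have := resL_apply L (localGaloisToGlobal q τ) ⟨x, hx⟩
    rw [h] at this
    exact this.symm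
  · intro h
    ext x
    rw [resL_apply]
    exact h x x.2

/-- the injective restriction `Gal(E/ℚ_q) → Gal(L/ℚ)`. -/
noncomputable def jE : DE q L →* GalL L :=
  (resE q L).liftOfSurjective (resE_surjective q L)
    ⟨locHom q L, by rw [ker_resE, ker_locHom]⟩

lemma jE_resE (τ : Gq q) : jE q L (resE q L τ) = locHom q L τ :=
  MonoidHom.liftOfRightInverse_comp_apply _ _ _ _ τ

lemma jE_comp_resE : (jE q L).comp (resE q L) = locHom q L :=
  MonoidHom.ext (jE_resE q L)

lemma jE_injective : Function.Injective (jE q L) := by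
  rw [injective_iff_map_eq_one]
  intro σ hσ
  obtain ⟨τ, rfl⟩ := resE_surjective q L σ
  rw [jE_resE] at hσ
  have : τ ∈ (locHom q L).ker := hσ
  rw [ker_locHom, ← ker_resE] at this
  exact this

/-- `ι (jE σ x) = σ (ι x)`. -/
lemma iotaL_jE (σ : DE q L) (x : L) :
    iotaL q L (jE q L σ x) =
      ((σ ⟨iotaL q L x, padicEmbedding_mem_localLevel q L x⟩ : Elev q L) : PadicAlgCl q) := by
  obtain ⟨τ, rfl⟩ := resE_surjective q L σ
  rw [jE_resE, iotaL_locHom, resE_apply]

/-- `Eˣ` as a `Gal(E/ℚ_q)`-module. -/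
noncomputable abbrev EUnits : Rep ℤ (DE q L) := Rep.ofAlgebraAutOnUnits ℚ_[q] (Elev q L)

/-- the inclusion `Eˣ → (PadicAlgCl q)ˣ`, additively. -/
noncomputable def eLin : (EUnits q L).V →ₗ[ℤ] (localUnits q).V :=
  (Units.map ((Elev q L).val : Elev q L →* PadicAlgCl q)).toAdditive.toIntLinearMap

lemma eLin_apply (u : (EUnits q L).V) :
    ((Additive.toMul (eLin q L u) : (PadicAlgCl q)ˣ) : PadicAlgCl q) =
      (((Additive.toMul u : (Elev q L)ˣ) : Elev q L) : PadicAlgCl q) := rfl

lemma eLin_injective : Function.Injective (eLin q L) := by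
  intro u v h
  apply Additive.toMul.injective
  apply Units.ext
  apply Subtype.ext
  have := congrArg (fun w => ((Additive.toMul w : (PadicAlgCl q)ˣ) : PadicAlgCl q)) h
  exact this

lemma eLin_equivariant (τ : Gq q) (u : (EUnits q L).V) :
    eLin q L ((EUnits q L).ρ (resE q L τ) u) = (localUnits q).ρ τ (eLin q L u) := by
  apply Additive.toMul.injective
  apply Units.ext
  exact resE_apply q L τ _

instance isGaloisPadicAlgCl : IsGalois ℚ_[q] (PadicAlgCl q) where

lemma eLin_range (a : (localUnits q).V) (ha : ∀ n ∈ (resE q L).ker, (localUnits q).ρ n a = a) :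
    ∃ b, eLin q L b = a := by
  set u : (PadicAlgCl q)ˣ := Additive.toMul a
  have hmem : ∀ v : (PadicAlgCl q)ˣ, (∀ n ∈ (Elev q L).fixingSubgroup, n (v : PadicAlgCl q) = v) →
      (v : PadicAlgCl q) ∈ Elev q L := by
    intro v hv
    rw [← InfiniteGalois.fixedField_fixingSubgroup (Elev q L), IntermediateField.mem_fixedField_iff]
    exact hv
  have hu : ∀ n ∈ (Elev q L).fixingSubgroup, n (u : PadicAlgCl q) = u := by
    intro n hn
    rw [← ker_resE] at hn
    have := ha n hn
    have := congrArg (fun w => ((Additive.toMul w : (PadicAlgCl q)ˣ) : PadicAlgCl q)) this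
    exact this
  have hu' : ∀ n ∈ (Elev q L).fixingSubgroup, n ((u⁻¹ : (PadicAlgCl q)ˣ) : PadicAlgCl q) =
      ((u⁻¹ : (PadicAlgCl q)ˣ) : PadicAlgCl q) := by
    intro n hn
    rw [Units.val_inv_eq_inv_val, map_inv₀, hu n hn]
  refine ⟨Additive.ofMul ⟨⟨u, hmem u hu⟩, ⟨(u⁻¹ : (PadicAlgCl q)ˣ), hmem _ hu'⟩, ?_, ?_⟩, ?_⟩
  · apply Subtype.ext; simp
  · apply Subtype.ext; simp
  · apply Additive.toMul.injective
    apply Units.ext
    rfl

/-- **the `q`-component of the ideles at finite level:** `J_{L,q} ≅ Coind_{Gal(E/ℚ_q)}^{Gal(L/ℚ)} Eˣ`. -/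
noncomputable def JqIso : Rep.coind (jE q L) (EUnits q L) ≅ Jq q L :=
  CoindSurj.coindCompIso (resE q L) (jE q L) (localUnits q) (EUnits q L) (eLin q L)
      (eLin_equivariant q L) (resE_surjective q L) (eLin_injective q L) (eLin_range q L) ≪≫
    eqToIso (congrArg (fun φ => Rep.coind φ (localUnits q)) (jE_comp_resE q L))

end galois

end Fermat.Agent.S55.Idele73.Local
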