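/-
S55 / 15-IDELE (helper73): Mackey decomposition of a coinduced representation restricted to a
subgroup, in Mathlib's `Rep k G` vocabulary.  Mathlib only.

`Res_H (Coind_φ A)` is the biproduct, over double cosets `φ.range \ G / H`, of the components
`comp φ A H x = Coind_{φ_x} (Res_{Γ_x} A)`, `Γ_x = {τ | x⁻¹ φ(τ) x ∈ H}`, `φ_x τ = x⁻¹ φ(τ) x`.
-/
import Mathlib

set_option autoImplicit false

namespace Fermat.Agent.S55.Idele73.Mackey

open CategoryTheory

variable {k : Type} [CommRing k] {Γ G : Type} [Group Γ] [Group G] (φ : Γ →* G) (A : Rep.{0} k Γ)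
variable (H : Subgroup G) (x : G)

/-- `Γ_x = {τ | x⁻¹ φ(τ) x ∈ H}`. -/
def twSub : Subgroup Γ where
  carrier := {τ | x⁻¹ * φ τ * x ∈ H}
  one_mem' := by simp
  mul_mem' := fun {a b} ha hb => by
    have h : x⁻¹ * φ (a * b) * x = (x⁻¹ * φ a * x) * (x⁻¹ * φ b * x) := by
      simp [mul_assoc]
    simp only [Set.mem_ofPred_eq] at ha hb ⊢
    rw [h]
    exact H.mul_mem ha hb
  inv_mem' := fun {a} ha => by
    have h : x⁻¹ * φ a⁻¹ * x = (x⁻¹ * φ a * x)⁻¹ := by
      simp [mul_assoc]
    simp only [Set.mem_ofPred_eq] at ha ⊢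
    rw [h]
    exact H.inv_mem ha

lemma mem_twSub {τ : Γ} : τ ∈ twSub φ H x ↔ x⁻¹ * φ τ * x ∈ H := Iff.rfl

/-- `φ_x : Γ_x → H`, `τ ↦ x⁻¹ φ(τ) x`. -/
def twHom : twSub φ H x →* H where
  toFun τ := ⟨x⁻¹ * φ τ * x, τ.2⟩
  map_one' := by ext; simp
  map_mul' a b := by ext; simp [mul_assoc]

@[simp] lemma coe_twHom (τ : twSub φ H x) : ((twHom φ H x τ : H) : G) = x⁻¹ * φ τ * x := rfl

/-- the `x`-component of `Res_H (Coind_φ A)`. -/
noncomputable abbrev comp : Rep.{0} k H :=
  Rep.coind (twHom φ H x) (Rep.res (twSub φ H x).subtype A)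

/-- the restricted coinduced representation. -/
noncomputable abbrev resCoind : Rep.{0} k H := Rep.res H.subtype (Rep.coind φ A)

/-- projection to the `x`-component: `f ↦ (h ↦ f (x h))`. -/
noncomputable def toComp : resCoind φ A H ⟶ comp φ A H x :=
  Rep.ofHom <| LinearMap.intertwiningMap_of_isIntertwiningMap
    (ρ := (resCoind φ A H).ρ) (σ := (comp φ A H x).ρ)
    { toFun := fun f => ⟨fun h => f.1 (x * h), fun τ h => by
        have := f.2 (τ : Γ) (x * h)
        have e : x * ((twHom φ H x τ * h : H) : G) = φ (τ : Γ) * (x * (h : G)) := by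
          rw [Subgroup.coe_mul, coe_twHom]; group
        change f.1 (x * ((twHom φ H x τ * h : H) : G)) = A.ρ (τ : Γ) (f.1 (x * (h : G)))
        rw [e]; exact this⟩
      map_add' := fun _ _ => rfl
      map_smul' := fun _ _ => rfl }
    (fun h f => by
      apply Subtype.ext
      funext h'
      change f.1 (x * (h' : G) * (h : G)) = f.1 (x * ((h' * h : H) : G))
      rw [Subgroup.coe_mul, mul_assoc])

/-- `g` lies in the double coset `φ(Γ) x H`. -/
def InDC (g : G) : Prop := ∃ (τ : Γ) (h : H), g = φ τ * x * h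

lemma inDC_mul_left {g : G} (σ : Γ) : InDC φ H x (φ σ * g) ↔ InDC φ H x g := by
  constructor
  · rintro ⟨τ, h, e⟩
    refine ⟨σ⁻¹ * τ, h, ?_⟩
    rw [map_mul, map_inv, mul_assoc, mul_assoc, ← mul_assoc (φ τ), ← e]; group
  · rintro ⟨τ, h, e⟩
    exact ⟨σ * τ, h, by rw [e, map_mul]; group⟩

lemma inDC_mul_right {g : G} (h₀ : H) : InDC φ H x (g * h₀) ↔ InDC φ H x g := by
  constructor
  · rintro ⟨τ, h, e⟩
    refine ⟨τ, h * h₀⁻¹, ?_⟩
    rw [Subgroup.coe_mul, Subgroup.coe_inv, ← mul_assoc, ← e]; group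
  · rintro ⟨τ, h, e⟩
    exact ⟨τ, h * h₀, by rw [e, Subgroup.coe_mul]; group⟩

open Classical in
/-- extension by zero of a function on the `x`-component. -/
noncomputable def ext0 (f : (comp φ A H x).V) : G → A.V := fun g =>
  if hg : InDC φ H x g then A.ρ hg.choose (f.1 hg.choose_spec.choose) else 0

lemma ext0_of_eq (f : (comp φ A H x).V) {g : G} (τ : Γ) (h : H) (e : g = φ τ * x * h) :
    ext0 φ A H x f g = A.ρ τ (f.1 h) := by
  have hg : InDC φ H x g := ⟨τ, h, e⟩
  rw [ext0, dif_pos hg]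
  set τ' := hg.choose
  set h' := hg.choose_spec.choose
  have e' : g = φ τ' * x * h' := hg.choose_spec.choose_spec
  -- `τ⁻¹ τ' ∈ Γ_x` and `φ_x (τ⁻¹ τ') = h h'⁻¹`
  have hmem : x⁻¹ * φ (τ⁻¹ * τ') * x = (h : G) * (h' : G)⁻¹ := by
    have : φ τ' * x = φ τ * x * h * (h' : G)⁻¹ := by rw [← e, e']; group
    rw [map_mul, map_inv, mul_assoc, mul_assoc, this]; group
  have hin : τ⁻¹ * τ' ∈ twSub φ H x := by
    rw [mem_twSub, hmem]; exact H.mul_mem h.2 (H.inv_mem h'.2)
  have key := f.2 ⟨τ⁻¹ * τ', hin⟩ h'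
  have e2 : twHom φ H x ⟨τ⁻¹ * τ', hin⟩ * h' = h := by
    apply Subtype.ext
    rw [Subgroup.coe_mul, coe_twHom]
    change x⁻¹ * φ (τ⁻¹ * τ') * x * (h' : G) = h
    rw [hmem]; group
  rw [e2] at key
  rw [key]
  change A.ρ τ' (f.1 h') = A.ρ τ (A.ρ (τ⁻¹ * τ') (f.1 h'))
  rw [← Module.End.mul_apply, ← map_mul, mul_inv_cancel_left]

lemma ext0_of_not (f : (comp φ A H x).V) {g : G} (hg : ¬ InDC φ H x g) :
    ext0 φ A H x f g = 0 := by
  rw [ext0, dif_neg hg]

lemma ext0_mem (f : (comp φ A H x).V) : ext0 φ A H x f ∈ Representation.coindV φ A.ρ := by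
  intro σ g
  by_cases hg : InDC φ H x g
  · obtain ⟨τ, h, e⟩ := hg
    rw [ext0_of_eq φ A H x f τ h e,
      ext0_of_eq φ A H x f (σ * τ) h (by rw [e, map_mul]; group), map_mul]
    rfl
  · rw [ext0_of_not φ A H x f hg,
      ext0_of_not φ A H x f (fun h' => hg ((inDC_mul_left φ H x σ).1 h')), map_zero]

/-- inclusion of the `x`-component (extension by zero). -/
noncomputable def fromComp : comp φ A H x ⟶ resCoind φ A H :=
  Rep.ofHom <| LinearMap.intertwiningMap_of_isIntertwiningMap
    (ρ := (comp φ A H x).ρ) (σ := (resCoind φ A H).ρ)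
    { toFun := fun f => ⟨ext0 φ A H x f, ext0_mem φ A H x f⟩
      map_add' := fun f f' => by
        apply Subtype.ext
        funext g
        by_cases hg : InDC φ H x g
        · obtain ⟨τ, h, e⟩ := hg
          change ext0 φ A H x (f + f') g = ext0 φ A H x f g + ext0 φ A H x f' g
          rw [ext0_of_eq φ A H x _ τ h e, ext0_of_eq φ A H x _ τ h e,
            ext0_of_eq φ A H x _ τ h e, ← map_add]
          rfl
        · change ext0 φ A H x (f + f') g = ext0 φ A H x f g + ext0 φ A H x f' g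
          rw [ext0_of_not φ A H x _ hg, ext0_of_not φ A H x _ hg, ext0_of_not φ A H x _ hg,
            add_zero]
      map_smul' := fun c f => by
        apply Subtype.ext
        funext g
        by_cases hg : InDC φ H x g
        · obtain ⟨τ, h, e⟩ := hg
          change ext0 φ A H x (c • f) g = c • ext0 φ A H x f g
          rw [ext0_of_eq φ A H x _ τ h e, ext0_of_eq φ A H x _ τ h e, ← map_smul]
          rfl
        · change ext0 φ A H x (c • f) g = c • ext0 φ A H x f g
          rw [ext0_of_not φ A H x _ hg, ext0_of_not φ A H x _ hg, smul_zero] }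
    (fun h₀ f => by
      apply Subtype.ext
      funext g
      change ext0 φ A H x ((comp φ A H x).ρ h₀ f) g = ext0 φ A H x f (g * h₀)
      by_cases hg : InDC φ H x g
      · obtain ⟨τ, h, e⟩ := hg
        rw [ext0_of_eq φ A H x _ τ h e,
          ext0_of_eq φ A H x f τ (h * h₀) (by rw [e, Subgroup.coe_mul]; group)]
        rfl
      · rw [ext0_of_not φ A H x _ hg,
          ext0_of_not φ A H x f (fun h' => hg ((inDC_mul_right φ H x h₀).1 h'))])

lemma toComp_apply (f : (resCoind φ A H).V) (h : H) :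
    ((toComp φ A H x).hom f).1 h = f.1 (x * h) := rfl

lemma fromComp_apply (f : (comp φ A H x).V) (g : G) :
    ((fromComp φ A H x).hom f).1 g = ext0 φ A H x f g := rfl

lemma inDC_self_mul (h : H) : InDC φ H x (x * h) := ⟨1, h, by simp⟩

lemma inDC_comm {y : G} (hy : InDC φ H x y) : InDC φ H y x := by
  obtain ⟨τ, h, e⟩ := hy
  refine ⟨τ⁻¹, h⁻¹, ?_⟩
  rw [e, map_inv, Subgroup.coe_inv]; group

lemma inDC_trans {y g : G} (hy : InDC φ H x y) (hg : InDC φ H y g) : InDC φ H x g := by
  obtain ⟨τ, h, e⟩ := hy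
  obtain ⟨τ', h', e'⟩ := hg
  refine ⟨τ' * τ, h * h', ?_⟩
  rw [e', e, map_mul, Subgroup.coe_mul]; group

/-- (M1) the `x`-component is a retract. -/
theorem fromComp_toComp : fromComp φ A H x ≫ toComp φ A H x = 𝟙 (comp φ A H x) := by
  apply Rep.hom_ext
  apply Representation.IntertwiningMap.ext
  apply LinearMap.ext
  intro f
  apply Subtype.ext
  funext h
  change ext0 φ A H x f (x * h) = f.1 h
  rw [ext0_of_eq φ A H x f 1 h (by simp), map_one]
  rfl

/-- (M2) different double cosets are orthogonal. -/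
theorem fromComp_toComp_of_not {y : G} (hy : ¬ InDC φ H x y) :
    fromComp φ A H x ≫ toComp φ A H y = 0 := by
  apply Rep.hom_ext
  apply Representation.IntertwiningMap.ext
  apply LinearMap.ext
  intro f
  apply Subtype.ext
  funext h
  change ext0 φ A H x f (y * h) = 0
  exact ext0_of_not φ A H x f (fun h' => hy ((inDC_mul_right φ H x h).1 h'))

/-- `R` is a system of representatives of the double cosets `φ(Γ) \ G / H`. -/
def IsRepr (R : Finset G) : Prop :=
  (∀ g : G, ∃ x ∈ R, InDC φ H x g) ∧ ∀ x ∈ R, ∀ y ∈ R, InDC φ H x y → x = y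

lemma inDC_refl : InDC φ H x x := ⟨1, 1, by simp⟩

/-- systems of representatives exist for finite `G`. -/
theorem exists_isRepr [Finite G] : ∃ R : Finset G, IsRepr φ H R := by
  classical
  have := Fintype.ofFinite G
  let s : Setoid G := ⟨fun x y => InDC φ H x y, ⟨fun x => inDC_refl φ H x,
    fun h => inDC_comm φ H _ h, fun h h' => inDC_trans φ H _ h h'⟩⟩
  refine ⟨Finset.univ.image (fun c : Quotient s => c.out), ?_, ?_⟩
  · intro g
    refine ⟨(Quotient.mk s g).out, by simp, ?_⟩
    exact Quotient.exact (Quotient.out_eq (Quotient.mk s g))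
  · intro x hx y hy hxy
    obtain ⟨c, _, rfl⟩ := Finset.mem_image.1 hx
    obtain ⟨c', _, rfl⟩ := Finset.mem_image.1 hy
    have : c = c' := by
      rw [← Quotient.out_eq c, ← Quotient.out_eq c']
      exact Quotient.sound hxy
    rw [this]

/-- (M3) the components exhaust `Res_H (Coind_φ A)`. -/
theorem sum_toComp_fromComp {R : Finset G} (hR : IsRepr φ H R) :
    ∑ x ∈ R, toComp φ A H x ≫ fromComp φ A H x = 𝟙 (resCoind φ A H) := by
  classical
  apply Rep.hom_ext
  apply Representation.IntertwiningMap.ext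
  apply LinearMap.ext
  intro f
  apply Subtype.ext
  funext g
  obtain ⟨x₀, hx₀, hg⟩ := hR.1 g
  have hsum : ((∑ x ∈ R, toComp φ A H x ≫ fromComp φ A H x).hom f).1 g
      = ∑ x ∈ R, ext0 φ A H x ((toComp φ A H x).hom f) g := by
    rw [Rep.sum_hom, Representation.IntertwiningMap.sum_apply, Submodule.coe_sum,
      Finset.sum_apply]
    rfl
  change ((∑ x ∈ R, toComp φ A H x ≫ fromComp φ A H x).hom f).1 g = f.1 g
  rw [hsum, Finset.sum_eq_single x₀]
  · obtain ⟨τ, h, e⟩ := hg
    rw [ext0_of_eq φ A H x₀ _ τ h e, toComp_apply, e, mul_assoc]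
    exact (f.2 τ (x₀ * h)).symm
  · intro y hy hne
    apply ext0_of_not
    intro hgy
    exact hne (hR.2 y hy x₀ hx₀ (inDC_trans φ H y (hgy) (inDC_comm φ H x₀ hg))).symm.symm
  · intro h; exact absurd hx₀ h

/-- (M4) vanishing passes from the components to `Res_H (Coind_φ A)` for every additive functor. -/
theorem isZero_of_comp {C : Type*} [Category C] [Preadditive C] (F : Rep.{0} k H ⥤ C) [F.Additive]
    {R : Finset G} (hR : IsRepr φ H R)
    (h0 : ∀ x ∈ R, Limits.IsZero (F.obj (comp φ A H x))) :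
    Limits.IsZero (F.obj (resCoind φ A H)) := by
  rw [Limits.IsZero.iff_id_eq_zero, ← F.map_id, ← sum_toComp_fromComp φ A H hR, F.map_sum]
  apply Finset.sum_eq_zero
  intro x hx
  rw [F.map_comp]
  rw [(h0 x hx).eq_of_tgt (F.map (toComp φ A H x)) 0, Limits.zero_comp]

instance hasFiniteBiproducts_rep : Limits.HasFiniteBiproducts (Rep.{0} k H) :=
  Abelian.hasFiniteBiproducts

open Limits in
/-- (M5) `Res_H (Coind_φ A)` is the biproduct of its components. -/
noncomputable def isoBiproduct {R : Finset G} (hR : IsRepr φ H R) :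
    resCoind φ A H ≅ ⨁ (fun x : R => comp φ A H (x : G)) where
  hom := biproduct.lift (fun x : R => toComp φ A H (x : G))
  inv := biproduct.desc (fun x : R => fromComp φ A H (x : G))
  hom_inv_id := by
    rw [biproduct.lift_desc, ← sum_toComp_fromComp φ A H hR]
    exact Finset.sum_coe_sort R (fun x => toComp φ A H x ≫ fromComp φ A H x)
  inv_hom_id := by
    classical
    apply biproduct.hom_ext
    intro y
    apply biproduct.hom_ext'
    intro x
    rw [Category.assoc, biproduct.lift_π, biproduct.ι_desc_assoc, Category.id_comp,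
      biproduct.ι_π]
    by_cases hxy : x = y
    · subst hxy
      rw [dif_pos rfl, fromComp_toComp]; rfl
    · rw [dif_neg hxy]
      apply fromComp_toComp_of_not
      intro h
      exact hxy (Subtype.ext (hR.2 x x.2 y y.2 h))

end Fermat.Agent.S55.Idele73.Mackey
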