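/-
S55 / 15-IDELE (helper73): Shapiro's lemma for coinduction along an INJECTIVE homomorphism, and the
cohomology of `Res_H (Coind_φ A)` (Mackey + Shapiro).  Mathlib only (+ CoindSurj, Mackey).
-/
import Mathlib
import Fermat.Agent.S55.Idele73.CoindSurj
import Fermat.Agent.S55.Idele73.Mackey

set_option autoImplicit false

namespace Fermat.Agent.S55.Idele73.ShapiroInj

open CategoryTheory

variable {k : Type} [CommRing k] {Γ G : Type} [Group Γ] [Group G]

/-- the cohomology functor is additive. -/
instance functor_additive (n : ℕ) : (groupCohomology.functor k G n).Additive where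
  map_add {A B} {f g} := by
    change HomologicalComplex.homologyMap ((groupCohomology.cochainsFunctor k G).map (f + g)) n
      = HomologicalComplex.homologyMap ((groupCohomology.cochainsFunctor k G).map f) n
        + HomologicalComplex.homologyMap ((groupCohomology.cochainsFunctor k G).map g) n
    rw [Functor.map_add, HomologicalComplex.homologyMap_add]

variable (φ : Γ →* G) (hφ : Function.Injective φ) (A : Rep.{0} k Γ)

/-- `A` transported to a representation of `φ.range`. -/
noncomputable abbrev onRange : Rep.{0} k φ.range :=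
  Rep.res (MonoidHom.ofInjective hφ).symm.toMonoidHom A

/-- coinduction along an injective hom = coinduction from the range. -/
noncomputable def coindRangeIso : Rep.coind φ.range.subtype (onRange φ hφ A) ≅ Rep.coind φ A :=
  CoindSurj.coindCompIso φ.rangeRestrict φ.range.subtype A (onRange φ hφ A) LinearMap.id
    (fun τ b => by
      change A.ρ ((MonoidHom.ofInjective hφ).symm (φ.rangeRestrict τ)) b = A.ρ τ b
      have : (MonoidHom.ofInjective hφ).symm (φ.rangeRestrict τ) = τ :=
        (MonoidHom.ofInjective hφ).symm_apply_apply τ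
      rw [this])
    φ.rangeRestrict_surjective (fun _ _ h => h) (fun a _ => ⟨a, rfl⟩)

/-- **Shapiro's lemma for an injective homomorphism.** -/
noncomputable def shapiroInj (n : ℕ) :
    groupCohomology (Rep.coind φ A) n ≅ groupCohomology A n :=
  (groupCohomology.functor k G n).mapIso (coindRangeIso φ hφ A).symm ≪≫
    groupCohomology.coindIso (onRange φ hφ A) n ≪≫
    (groupCohomology.mapIso (MonoidHom.ofInjective hφ) (LinearEquiv.refl k A.V)
      (fun g => by
        apply LinearMap.ext
        intro a
        change A.ρ g a = A.ρ ((MonoidHom.ofInjective hφ).symm (MonoidHom.ofInjective hφ g)) a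
        rw [(MonoidHom.ofInjective hφ).symm_apply_apply g]) n).symm

/-! ### Mackey + Shapiro -/

variable (H : Subgroup G) (x : G)

include hφ in
lemma twHom_injective : Function.Injective (Mackey.twHom φ H x) := by
  intro τ τ' h
  have h' : x⁻¹ * φ τ * x = x⁻¹ * φ τ' * x := congrArg (fun u : H => (u : G)) h
  apply Subtype.ext
  apply hφ
  simpa using h'

/-- cohomology of the `x`-component of `Res_H (Coind_φ A)`: `Hⁿ(H, comp x) ≅ Hⁿ(Γ_x, A)`. -/
noncomputable def compIso (n : ℕ) :
    groupCohomology (Mackey.comp φ A H x) n ≅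
      groupCohomology (Rep.res (Mackey.twSub φ H x).subtype A) n :=
  shapiroInj (Mackey.twHom φ H x) (twHom_injective φ hφ H x)
    (Rep.res (Mackey.twSub φ H x).subtype A) n

include hφ in
/-- vanishing of `Hⁿ(H, Coind_φ A)` from vanishing of all `Hⁿ(Γ_x, A)`. -/
theorem isZero_resCoind (n : ℕ) {R : Finset G} (hR : Mackey.IsRepr φ H R)
    (h0 : ∀ x ∈ R, Limits.IsZero
      (groupCohomology (Rep.res (Mackey.twSub φ H x).subtype A) n)) :
    Limits.IsZero (groupCohomology (Mackey.resCoind φ A H) n) :=
  Mackey.isZero_of_comp φ A H (groupCohomology.functor k H n) hR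
    (fun x hx => (h0 x hx).of_iso (compIso φ hφ A H x n))

open Limits in
/-- `Hⁿ(H, Coind_φ A) ≅ ⨁_{x ∈ φ(Γ)\G/H} Hⁿ(Γ_x, A)`. -/
noncomputable def resCoindIso (n : ℕ) {R : Finset G} (hR : Mackey.IsRepr φ H R) :
    groupCohomology (Mackey.resCoind φ A H) n ≅
      ⨁ (fun x : R => groupCohomology (Rep.res (Mackey.twSub φ H (x : G)).subtype A) n) :=
  (groupCohomology.functor k H n).mapIso (Mackey.isoBiproduct φ A H hR) ≪≫
    (groupCohomology.functor k H n).mapBiproduct _ ≪≫
    biproduct.mapIso (fun x : R => compIso φ hφ A H (x : G) n)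

include hφ in
/-- cardinalities multiply. -/
theorem card_resCoind (n : ℕ) {R : Finset G} (hR : Mackey.IsRepr φ H R) :
    Nat.card (groupCohomology (Mackey.resCoind φ A H) n) =
      ∏ x : R, Nat.card (groupCohomology (Rep.res (Mackey.twSub φ H (x : G)).subtype A) n) := by
  rw [← Nat.card_pi]
  exact Nat.card_congr
    ((resCoindIso φ hφ A H n hR ≪≫ ModuleCat.biproductIsoPi _).toLinearEquiv.toEquiv)

end Fermat.Agent.S55.Idele73.ShapiroInj
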