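/-
S55 / 15-IDELE (helper73): cohomology of the `q`-component `Jq q L` of the ideles, restricted to an
arbitrary subgroup `H ≤ Gal(L/ℚ)` (base field `K = L^H`):
`Hⁿ(H, Jq) ≅ ⨁_{x ∈ D\G/H} Hⁿ(Gal(E/K_x), Eˣ)` and `H¹(H, Jq) = 0` (Hilbert 90).
-/
import Mathlib
import Fermat.Agent.S55.Idele73.Local
import Fermat.Agent.S55.Idele73.ShapiroInj

set_option autoImplicit false

namespace Fermat.Agent.S55.Idele73.Components

open CategoryTheory Basic Local

/-! ### Units of a finite extension restricted to a subgroup of the Galois group -/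

section Sub

variable {F E : Type} [Field F] [Field E] [Algebra F E] [FiniteDimensional F E]
variable (D' : Subgroup (E ≃ₐ[F] E))

lemma subgroupEquivAlgEquiv_apply (σ : D') (x : E) :
    IntermediateField.subgroupEquivAlgEquiv D' σ x = (σ : E ≃ₐ[F] E) x := rfl

/-- `Hⁿ(D', Eˣ) ≅ Hⁿ(Gal(E/E^{D'}), Eˣ)`. -/
noncomputable def resUnitsIso (n : ℕ) :
    groupCohomology (Rep.res D'.subtype (Rep.ofAlgebraAutOnUnits F E)) n ≅
      groupCohomology (Rep.ofAlgebraAutOnUnits (IntermediateField.fixedField D') E) n :=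
  groupCohomology.mapIso (IntermediateField.subgroupEquivAlgEquiv D')
    (LinearEquiv.refl ℤ (Additive Eˣ))
    (fun g => by
      apply LinearMap.ext
      intro a
      rfl) n

/-- Hilbert 90 for a subgroup of the Galois group. -/
theorem isZero_H1_resUnits :
    Limits.IsZero (groupCohomology (Rep.res D'.subtype (Rep.ofAlgebraAutOnUnits F E)) 1) := by
  refine Limits.IsZero.of_iso ?_ (resUnitsIso D' 1)
  have : Subsingleton (groupCohomology.H1
      (Rep.ofAlgebraAutOnUnits (IntermediateField.fixedField D') E)) :=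
    (groupCohomology.H1ofAutOnUnitsUnique (IntermediateField.fixedField D') E).instSubsingleton
  exact ModuleCat.isZero_of_subsingleton _

end Sub

/-! ### The `q`-component of the ideles over a subfield `K = L^H` -/

section Global

variable (q : ℕ) [Fact q.Prime] (L : IntermediateField ℚ Qbar) [Normal ℚ L]
variable (H : Subgroup (GalL L)) (x : GalL L)

/-- the decomposition group `D_x = Gal(E/K_x) ≤ Gal(E/ℚ_q)` of the place of `K = L^H` attached to
the double coset `D x H`: `{τ | x⁻¹ * jE τ * x ∈ H}`. -/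
noncomputable abbrev Dx : Subgroup (DE q L) := Mackey.twSub (jE q L) H x

/-- the completion `K_x ≤ E` of `K = L^H` at the place attached to `D x H`, as the fixed field of
`Dx`. -/
noncomputable abbrev Kx : IntermediateField ℚ_[q] (Elev q L) := IntermediateField.fixedField (Dx q L H x)

/-- `Res_H (Jq q L) ≅ Res_H (Coind_{jE} Eˣ)`. -/
noncomputable def resJqIso :
    Mackey.resCoind (jE q L) (EUnits q L) H ≅ Rep.res H.subtype (Jq q L) :=
  (Rep.resFunctor H.subtype).mapIso (JqIso q L)

variable [FiniteDimensional ℚ L]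

instance finite_GalL : Finite (GalL L) := inferInstance

/-- **`H¹(H, Jq q L) = 0`** for every subgroup `H ≤ Gal(L/ℚ)` (semi-local Hilbert 90). -/
theorem isZero_H1_Jq :
    Limits.IsZero (groupCohomology (Rep.res H.subtype (Jq q L)) 1) := by
  obtain ⟨R, hR⟩ := Mackey.exists_isRepr (jE q L) H
  refine Limits.IsZero.of_iso ?_
    ((groupCohomology.functor ℤ H 1).mapIso (resJqIso q L H).symm)
  exact ShapiroInj.isZero_resCoind (jE q L) (jE_injective q L) (EUnits q L) H 1 hR
    (fun x _ => isZero_H1_resUnits (Dx q L H x))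

open Limits in
/-- **`Hⁿ(H, Jq q L) ≅ ⨁_{x ∈ D\G/H} Hⁿ(Gal(E/K_x), Eˣ)`.** -/
noncomputable def HnJqIso (n : ℕ) {R : Finset (GalL L)} (hR : Mackey.IsRepr (jE q L) H R) :
    groupCohomology (Rep.res H.subtype (Jq q L)) n ≅
      ⨁ (fun x : R => groupCohomology
        (Rep.ofAlgebraAutOnUnits (Kx q L H (x : GalL L)) (Elev q L)) n) :=
  (groupCohomology.functor ℤ H n).mapIso (resJqIso q L H).symm ≪≫
    ShapiroInj.resCoindIso (jE q L) (jE_injective q L) (EUnits q L) H n hR ≪≫
    biproduct.mapIso (fun x : R => resUnitsIso (Dx q L H (x : GalL L)) n)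

/-- cardinality form. -/
theorem card_Hn_Jq (n : ℕ) {R : Finset (GalL L)} (hR : Mackey.IsRepr (jE q L) H R) :
    Nat.card (groupCohomology (Rep.res H.subtype (Jq q L)) n) =
      ∏ x : R, Nat.card (groupCohomology
        (Rep.ofAlgebraAutOnUnits (Kx q L H (x : GalL L)) (Elev q L)) n) := by
  rw [← Nat.card_pi]
  exact Nat.card_congr
    ((HnJqIso q L H n hR ≪≫ ModuleCat.biproductIsoPi _).toLinearEquiv.toEquiv)

end Global

end Fermat.Agent.S55.Idele73.Components
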