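/-
S55 / 31-FIRST-INEQ, final glue (helper73): the first inequality `FirstIneqOut (CS h) ⊤ p` for
helper44's `S`-idele class module `C_S(L) = (J_S × I^S)/Lˣ`, from helper27's
`FirstIneq27.Main.firstIneqOut_of_factors`, the local factors `PairST.layerPair_Jq_cLoc` /
`layerPair_Zq_cLoc`, and the Herbrand quotient of the `T`-units of the layers (named hypothesis
`UnitFactor`, = helper1 (L3) `heIsoBeta` + helper16 (L4) `Match.q_layer_sUnits_eq`).
-/
import Mathlib
import Fermat.Agent.S55.Idele73.PairST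
import Fermat.Agent.S55.FirstIneq27.Main
import Fermat.Agent.S55.IdeleVal44.Class

set_option autoImplicit false
set_option linter.unusedSectionVars false

namespace Fermat.Agent.S55.Idele73.FirstOut

open CategoryTheory Basic Local Components LayerJq
open Fermat.Agent.S55.Herbrand54 Fermat.Agent.S55.HerbrandCyclic54 Fermat.Agent.S55.HerbrandHcyc54
open Fermat.Agent.S55.Adapt77.HcycGlue Fermat.Agent.S55.IdeleVal44
open Fermat.Agent.S55.SUnit1.HomSES Fermat.Agent.S55.FirstIneq27.Layer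
open Fermat.Agent.S55.FirstIneq27.Main

attribute [local instance] Fermat.Agent.S55.IdeleVal44.factPrimes44

/-! ### the presentation of helper44's `CS h` -/

section Adapter

variable {L : IntermediateField ℚ Qbar} [Normal ℚ L] {S : Finset Nat.Primes}
variable (h : UnrOutside L S)

/-- the map `I^S ⟶ C_S`. -/
noncomputable def isToCS : IS L S ⟶ CS h := prodRep.inr _ _ ≫ toCS h

theorem isToCS_hom_apply (w : IS L S) :
    (isToCS h).hom w = (toCS h).hom (prodRep.mk _ _ 0 w) := rfl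

theorem jsToCS_add_isToCS (u : (JS L S).V) (w : (IS L S).V) :
    (jsToCS h).hom u + (isToCS h).hom w = (toCS h).hom (prodRep.mk (JS L S) (IS L S) u w) := by
  rw [jsToCS_hom_apply, isToCS_hom_apply, ← map_add]
  congr 1
  apply prodRep.ext
  · change u + 0 = u
    rw [add_zero]
  · change 0 + w = w
    rw [zero_add]

/-- `hCex` of `FirstIneq27.Main` for `CS h`. -/
theorem hCex_CS (u : (JS L S).V) (w : (IS L S).V) :
    (jsToCS h).hom u + (isToCS h).hom w = 0 ↔
      ∃ x : (Lx L).V, (diagS L S).hom x = u ∧ (idealMap h).hom x = w := by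
  rw [jsToCS_add_isToCS, toCS_eq_zero_iff]
  constructor
  · rintro ⟨x, hx⟩
    have hx' : (deltaS h).hom x = prodRep.mk (JS L S) (IS L S) u w := hx
    exact ⟨x, congrArg (prodRep.p1 _ _) hx', congrArg (prodRep.p2 _ _) hx'⟩
  · rintro ⟨x, rfl, rfl⟩
    exact ⟨x, rfl⟩

/-- `hCsurj` of `FirstIneq27.Main` for `CS h`. -/
theorem hCsurj_CS (c : (CS h).V) :
    ∃ (u : (JS L S).V) (w : (IS L S).V), (jsToCS h).hom u + (isToCS h).hom w = c := by
  obtain ⟨y, rfl⟩ := toCS_surjective h c
  refine ⟨prodRep.p1 _ _ y, prodRep.p2 _ _ y, ?_⟩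
  rw [jsToCS_add_isToCS]
  rfl

end Adapter

/-! ### the unit factor and the final statement -/

variable {L : IntermediateField ℚ Qbar} [Normal ℚ L] [FiniteDimensional ℚ L]
variable {S : Finset Nat.Primes} (T : Finset Nat.Primes) (h : UnrOutside L S)

/-- **the unit factor** (helper1 (L3) + helper16 (L4), literal shape of `hE_beta`): for every cyclic
layer of odd order the Herbrand quotient of the `T`-units of the layer, times `|H ⧸ N|`, is the
local product over `T`. -/
def UnitFactor : Prop :=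
  ∀ (H : Subgroup (GalL L)) (N : Subgroup H) [N.Normal] [Fintype (H ⧸ N)] (g : H ⧸ N),
    Odd (Nat.card (H ⧸ N)) → (∀ τ : H ⧸ N, τ ∈ Subgroup.zpowers g) →
    ∀ (R : InS T → Finset (GalL L)),
      (∀ ℓ : InS T, Mackey.IsRepr (jE ℓ.1.1 L) H (R ℓ)) →
      (kerPair (layerHom (beta T h) H N g)).IsDefined ∧
        (kerPair (layerHom (beta T h) H N g)).q * Nat.card (H ⧸ N) =
          ((∏ ℓ : InS T, ∏ x : R ℓ,
            Nat.card (Dx ℓ.1.1 L H x ⧸ MxJ ℓ.1.1 L H N x) : ℕ) : ℚ)

/-- `hfac` of `firstIneqOut_of_factors` with `c ℓ := cLoc L H N ℓ`. -/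
theorem hfac_of_unitFactor (hU : UnitFactor T h) (p : ℕ) (hp : Odd p)
    (H : Subgroup (GalL L)) (N : Subgroup H) [N.Normal] (hc : Nat.card (H ⧸ N) = p)
    [Fintype (H ⧸ N)] (g : H ⧸ N) (hg : ∀ x, x ∈ Subgroup.zpowers g) :
    ∃ c : Nat.Primes → ℚ,
      (∀ q : InS S, (layerPair (Jq q.1.1 L) H N g).IsDefined ∧
        (layerPair (Jq q.1.1 L) H N g).q = c q.1) ∧
      (∀ ℓ : {ℓ : OutS S // inT S T ℓ}, (layerPair (Zq L ℓ.1.1.1) H N g).IsDefined ∧
        (layerPair (Zq L ℓ.1.1.1) H N g).q = c ℓ.1.1) ∧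
      ((kerPair (layerHom (beta T h) H N g)).IsDefined ∧
        (kerPair (layerHom (beta T h) H N g)).q * p = ∏ ℓ ∈ T, c ℓ) := by
  refine ⟨fun ℓ => (PairST.cLoc L H N ℓ : ℚ),
    fun q => PairST.layerPair_Jq_cLoc L H N g hg q.1,
    fun ℓ => PairST.layerPair_Zq_cLoc L H N g hg ℓ.1.1, ?_⟩
  have hE := hU H N g (hc ▸ hp) hg
    (fun ℓ => (Mackey.exists_isRepr (jE ℓ.1.1 L) H).choose)
    (fun ℓ => (Mackey.exists_isRepr (jE ℓ.1.1 L) H).choose_spec)
  refine ⟨hE.1, ?_⟩
  have h2 := hE.2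
  rw [hc] at h2
  rw [h2, ← Nat.cast_prod]
  congr 1
  exact Finset.prod_coe_sort T (fun ℓ => PairST.cLoc L H N ℓ)

/-- **(31-OUT) for `C_S(L)`**: the first inequality for all cyclic layers of odd prime order `p`
of helper44's class module, given the unit factor for one good `T ⊇ S`. -/
theorem firstIneqOut_CS_of_unitFactor (hS : S.Nonempty) (hST : S ⊆ T) (hT : ClassGood L T)
    (hU : UnitFactor T h) (p : ℕ) (hp : Odd p) :
    FirstIneqOut (CS h) ⊤ p :=
  firstIneqOut_of_factors T h (jsToCS h) (isToCS h) hS hST hT (hCex_CS h) (hCsurj_CS h) p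
    (fun H N _ hc _ g hg => hfac_of_unitFactor T h hU p hp H N hc g hg)

/-- **(31-OUT) for `C_S(L)`**, with the good `T` chosen: it remains to provide the unit factor for
every finite `T ⊇ S`. -/
theorem firstIneqOut_CS (hS : S.Nonempty)
    (hU : ∀ T : Finset Nat.Primes, S ⊆ T → UnitFactor T h) (p : ℕ) (hp : Odd p) :
    FirstIneqOut (CS h) ⊤ p := by
  obtain ⟨T, hST, hT⟩ := exists_classGood L S h
  exact firstIneqOut_CS_of_unitFactor T h hS hST hT (hU T hST) p hp

end Fermat.Agent.S55.Idele73.FirstOut
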