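/-
S55 / 15-IDELE (helper73): invariants of a coinduced representation under the kernel of a
surjection `r : G →* G'` are the representation coinduced to `G'`:
`(Coind_ψ A)^{ker r} = Coind_{r ∘ ψ} A`.  Mathlib only.
-/
import Mathlib

set_option autoImplicit false

namespace Fermat.Agent.S55.Idele73.Inflate

open CategoryTheory

variable {k : Type} [CommRing k] {Γ G G' : Type} [Group Γ] [Group G] [Group G']
variable (r : G →* G') (ψ : Γ →* G) (A : Rep.{0} k Γ)

/-- `f' ↦ f' ∘ r`. -/
noncomputable def inflLin : (Rep.coind (r.comp ψ) A).V →ₗ[k] (Rep.coind ψ A).V where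
  toFun f := ⟨fun g => f.1 (r g), fun τ g => by
    change f.1 (r (ψ τ * g)) = A.ρ τ (f.1 (r g))
    rw [map_mul]
    exact f.2 τ (r g)⟩
  map_add' _ _ := rfl
  map_smul' _ _ := rfl

lemma inflLin_apply (f : (Rep.coind (r.comp ψ) A).V) (g : G) :
    (inflLin r ψ A f).1 g = f.1 (r g) := rfl

lemma inflLin_equivariant (g : G) (f : (Rep.coind (r.comp ψ) A).V) :
    inflLin r ψ A ((Rep.coind (r.comp ψ) A).ρ (r g) f) = (Rep.coind ψ A).ρ g (inflLin r ψ A f) := by
  apply Subtype.ext
  funext g'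
  change f.1 (r g' * r g) = f.1 (r (g' * g))
  rw [map_mul]

/-- the inflation morphism `Res_r (Coind_{r∘ψ} A) ⟶ Coind_ψ A`. -/
noncomputable def inflCoind : Rep.res r (Rep.coind (r.comp ψ) A) ⟶ Rep.coind ψ A :=
  Rep.ofHom <| LinearMap.intertwiningMap_of_isIntertwiningMap
    (ρ := (Rep.res r (Rep.coind (r.comp ψ) A)).ρ) (σ := (Rep.coind ψ A).ρ)
    (inflLin r ψ A) (fun g f => inflLin_equivariant r ψ A g f)

lemma inflCoind_hom_apply (f : (Rep.coind (r.comp ψ) A).V) (g : G) :
    ((inflCoind r ψ A).hom f).1 g = f.1 (r g) := rfl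

variable (hr : Function.Surjective r)

include hr in
lemma inflLin_injective : Function.Injective (inflLin r ψ A) := by
  intro f f' h
  apply Subtype.ext
  funext g'
  obtain ⟨g, rfl⟩ := hr g'
  exact congrArg (fun F => F.1 g) h

lemma inflLin_invariant (f : (Rep.coind (r.comp ψ) A).V) {n : G} (hn : n ∈ r.ker) :
    (Rep.coind ψ A).ρ n (inflLin r ψ A f) = inflLin r ψ A f := by
  apply Subtype.ext
  funext g
  change f.1 (r (g * n)) = f.1 (r g)
  rw [map_mul, MonoidHom.mem_ker.1 hn, mul_one]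

include hr in
lemma exists_inflLin_eq (F : (Rep.coind ψ A).V)
    (hF : ∀ n ∈ r.ker, (Rep.coind ψ A).ρ n F = F) : ∃ f, inflLin r ψ A f = F := by
  have hconst : ∀ g₁ g₂ : G, r g₁ = r g₂ → F.1 g₁ = F.1 g₂ := by
    intro g₁ g₂ h
    have hn : g₁⁻¹ * g₂ ∈ r.ker := by
      rw [MonoidHom.mem_ker, map_mul, map_inv, h, inv_mul_cancel]
    have := congrArg (fun F' => F'.1 g₁) (hF _ hn)
    change F.1 (g₁ * (g₁⁻¹ * g₂)) = F.1 g₁ at this
    rw [mul_inv_cancel_left] at this
    exact this.symm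
  choose s hs using hr
  refine ⟨⟨fun g' => F.1 (s g'), fun τ g' => ?_⟩, ?_⟩
  · change F.1 (s (r (ψ τ) * g')) = A.ρ τ (F.1 (s g'))
    rw [← F.2 τ (s g')]
    apply hconst
    rw [hs, map_mul, hs]
  · apply Subtype.ext
    funext g
    change F.1 (s (r g)) = F.1 g
    exact hconst _ _ (hs _)

include hr in
/-- the range of inflation is the submodule of `ker r`-invariants. -/
lemma mem_range_inflLin_iff (F : (Rep.coind ψ A).V) :
    F ∈ LinearMap.range (inflLin r ψ A) ↔ ∀ n ∈ r.ker, (Rep.coind ψ A).ρ n F = F := by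
  constructor
  · rintro ⟨f, rfl⟩ n hn
    exact inflLin_invariant r ψ A f hn
  · intro hF
    exact exists_inflLin_eq r ψ A hr F hF

/-! ### Quotient form -/

variable (N : Subgroup G) [N.Normal]

/-- `Coind_{mk ∘ ψ} A → (Coind_ψ A)^N`. -/
noncomputable def toInv : (Rep.coind ((QuotientGroup.mk' N).comp ψ) A).V →ₗ[k]
    ((Rep.coind ψ A).quotientToInvariants N).V :=
  (inflLin (QuotientGroup.mk' N) ψ A).codRestrict _ (fun f n =>
    inflLin_invariant (QuotientGroup.mk' N) ψ A f (by
      rw [QuotientGroup.ker_mk']; exact n.2))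

lemma toInv_apply (f : (Rep.coind ((QuotientGroup.mk' N).comp ψ) A).V) (g : G) :
    (toInv ψ A N f).1.1 g = f.1 (g : G ⧸ N) := rfl

lemma toInv_bijective : Function.Bijective (toInv ψ A N) := by
  constructor
  · intro f f' h
    apply inflLin_injective (QuotientGroup.mk' N) ψ A (QuotientGroup.mk'_surjective N)
    exact congrArg Subtype.val h
  · intro F
    obtain ⟨f, hf⟩ := exists_inflLin_eq (QuotientGroup.mk' N) ψ A
      (QuotientGroup.mk'_surjective N) F.1 (fun n hn => by
        rw [QuotientGroup.ker_mk'] at hn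
        exact F.2 ⟨n, hn⟩)
    exact ⟨f, Subtype.ext hf⟩

/-- **`(Coind_ψ A)^N ≅ Coind_{G → G/N ∘ ψ} A`** as representations of `G ⧸ N`. -/
noncomputable def quotInvIso :
    Rep.coind ((QuotientGroup.mk' N).comp ψ) A ≅ (Rep.coind ψ A).quotientToInvariants N :=
  Rep.mkIso <| Representation.Equiv.mk
    (LinearEquiv.ofBijective (toInv ψ A N) (toInv_bijective ψ A N))
    (fun g' => by
      induction g' using QuotientGroup.induction_on with
      | H g =>
        apply LinearMap.ext
        intro f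
        apply Subtype.ext
        apply Subtype.ext
        funext g₀
        change f.1 ((g₀ : G ⧸ N) * (g : G ⧸ N)) = f.1 ((g₀ * g : G) : G ⧸ N)
        rfl)

lemma quotInvIso_hom_apply (f : (Rep.coind ((QuotientGroup.mk' N).comp ψ) A).V) (g : G) :
    ((quotInvIso ψ A N).hom.hom f).1.1 g = f.1 (g : G ⧸ N) := rfl

end Fermat.Agent.S55.Idele73.Inflate
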