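/-
S55 / 15-IDELE (helper73): the layer `(H ⧸ N, (Res_H Coind_φ A)^N)` for `N ⊴ H ≤ G`:
`(Res_H Coind_φ A)^N ≅ ⨁_x Coind_{Γ_x/M_x ↪ H/N} (A^{M_x})` and
`Hⁿ(H/N, (Res_H Coind_φ A)^N) ≅ ⨁_x Hⁿ(Γ_x/M_x, A^{M_x})`.  Mathlib only (+ Idele73 abstract files).
-/
import Mathlib
import Fermat.Agent.S55.Idele73.CoindSurj
import Fermat.Agent.S55.Idele73.Mackey
import Fermat.Agent.S55.Idele73.Inflate
import Fermat.Agent.S55.Idele73.ShapiroInj

set_option autoImplicit false

namespace Fermat.Agent.S55.Idele73.Layer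

open CategoryTheory

variable {k : Type} [CommRing k] {Γ G : Type} [Group Γ] [Group G] (φ : Γ →* G) (A : Rep.{0} k Γ)
variable (H : Subgroup G) (N : Subgroup H) [N.Normal] (x : G)

/-- `M_x ⊴ Γ_x`: the elements of `Γ_x` mapping into `N`. -/
abbrev Mx : Subgroup (Mackey.twSub φ H x) := N.comap (Mackey.twHom φ H x)

instance normal_Mx : (Mx φ H N x).Normal := Subgroup.Normal.comap inferInstance _

/-- the injective map `Γ_x ⧸ M_x →* H ⧸ N`. -/
def jx : Mackey.twSub φ H x ⧸ Mx φ H N x →* H ⧸ N :=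
  QuotientGroup.map (Mx φ H N x) N (Mackey.twHom φ H x) le_rfl

lemma jx_mk (τ : Mackey.twSub φ H x) :
    jx φ H N x (τ : Mackey.twSub φ H x ⧸ Mx φ H N x) = ((Mackey.twHom φ H x τ : H) : H ⧸ N) := rfl

lemma jx_injective : Function.Injective (jx φ H N x) := by
  rw [injective_iff_map_eq_one]
  intro t ht
  induction t using QuotientGroup.induction_on with
  | H τ =>
    rw [jx_mk, QuotientGroup.eq_one_iff] at ht
    exact (QuotientGroup.eq_one_iff τ).2 ht

/-- the local module `A^{M_x}` as a representation of `Γ_x ⧸ M_x`. -/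
noncomputable abbrev Bx : Rep.{0} k (Mackey.twSub φ H x ⧸ Mx φ H N x) :=
  (Rep.res (Mackey.twSub φ H x).subtype A).quotientToInvariants (Mx φ H N x)

/-- the `N`-invariants of the `x`-component are coinduced from `A^{M_x}`. -/
noncomputable def compInvIso :
    Rep.coind (jx φ H N x) (Bx φ A H N x) ≅ (Mackey.comp φ A H x).quotientToInvariants N :=
  CoindSurj.coindCompIso (QuotientGroup.mk' (Mx φ H N x)) (jx φ H N x)
      (Rep.res (Mackey.twSub φ H x).subtype A) (Bx φ A H N x) (Submodule.subtype _)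
      (fun _ _ => rfl) (QuotientGroup.mk'_surjective _) (Submodule.injective_subtype _)
      (fun a ha => ⟨⟨a, fun m => ha m.1 (by rw [QuotientGroup.ker_mk']; exact m.2)⟩, rfl⟩) ≪≫
    Inflate.quotInvIso (Mackey.twHom φ H x) (Rep.res (Mackey.twSub φ H x).subtype A) N

/-- `A ↦ A^N` is additive. -/
instance quotInvFunctor_additive {Q : Type} [Group Q] (S : Subgroup Q) [S.Normal] :
    (Rep.quotientToInvariantsFunctor.{0} k S).Additive where
  map_add {X Y} {f g} := by
    apply Rep.hom_ext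
    apply Representation.IntertwiningMap.ext
    apply LinearMap.ext
    intro a
    apply Subtype.ext
    rfl

instance hasFiniteBiproducts_rep' (Q : Type) [Group Q] :
    Limits.HasFiniteBiproducts (Rep.{0} k Q) :=
  Abelian.hasFiniteBiproducts

open Limits in
/-- **`(Res_H Coind_φ A)^N ≅ ⨁_x Coind_{Γ_x/M_x → H/N} (A^{M_x})`.** -/
noncomputable def layerBiproductIso {R : Finset G} (hR : Mackey.IsRepr φ H R) :
    (Mackey.resCoind φ A H).quotientToInvariants N ≅
      ⨁ (fun x : R => Rep.coind (jx φ H N (x : G)) (Bx φ A H N (x : G))) :=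
  (Rep.quotientToInvariantsFunctor.{0} k N).mapIso (Mackey.isoBiproduct φ A H hR) ≪≫
    (Rep.quotientToInvariantsFunctor.{0} k N).mapBiproduct _ ≪≫
    biproduct.mapIso (fun x : R => (compInvIso φ A H N (x : G)).symm)

open Limits in
/-- **`Hⁿ(H/N, (Res_H Coind_φ A)^N) ≅ ⨁_x Hⁿ(Γ_x/M_x, A^{M_x})`.** -/
noncomputable def layerIso (n : ℕ) {R : Finset G} (hR : Mackey.IsRepr φ H R) :
    groupCohomology ((Mackey.resCoind φ A H).quotientToInvariants N) n ≅
      ⨁ (fun x : R => groupCohomology (Bx φ A H N (x : G)) n) :=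
  (groupCohomology.functor k (H ⧸ N) n).mapIso (layerBiproductIso φ A H N hR) ≪≫
    (groupCohomology.functor k (H ⧸ N) n).mapBiproduct _ ≪≫
    biproduct.mapIso (fun x : R => ShapiroInj.shapiroInj (jx φ H N (x : G))
      (jx_injective φ H N (x : G)) (Bx φ A H N (x : G)) n)

/-- vanishing form. -/
theorem isZero_layer (n : ℕ) {R : Finset G} (hR : Mackey.IsRepr φ H R)
    (h0 : ∀ x ∈ R, Limits.IsZero (groupCohomology (Bx φ A H N x) n)) :
    Limits.IsZero (groupCohomology ((Mackey.resCoind φ A H).quotientToInvariants N) n) := by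
  refine Limits.IsZero.of_iso ?_ (layerIso φ A H N n hR)
  rw [Limits.IsZero.iff_id_eq_zero]
  apply Limits.biproduct.hom_ext
  intro y
  exact (h0 y y.2).eq_of_tgt _ _

/-- cardinality form. -/
theorem card_layer (n : ℕ) {R : Finset G} (hR : Mackey.IsRepr φ H R) :
    Nat.card (groupCohomology ((Mackey.resCoind φ A H).quotientToInvariants N) n) =
      ∏ x : R, Nat.card (groupCohomology (Bx φ A H N (x : G)) n) := by
  rw [← Nat.card_pi]
  exact Nat.card_congr
    ((layerIso φ A H N n hR ≪≫ ModuleCat.biproductIsoPi _).toLinearEquiv.toEquiv)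

end Fermat.Agent.S55.Idele73.Layer
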