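/-
S55 / 15-IDELE (helper73): the layers `(H ⧸ N, (Jq q L)^N)` for `N ⊴ H ≤ Gal(L/ℚ)`
(relative extension `L^N / L^H`, neither field assumed Galois over `ℚ`).
-/
import Mathlib
import Fermat.Agent.S55.Idele73.Components
import Fermat.Agent.S55.Idele73.Layer

set_option autoImplicit false

namespace Fermat.Agent.S55.Idele73.LayerJq

open CategoryTheory Basic Local Components

variable (q : ℕ) [Fact q.Prime] (L : IntermediateField ℚ Qbar) [Normal ℚ L]
variable (H : Subgroup (GalL L)) (N : Subgroup H) [N.Normal] (x : GalL L)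

/-- `M_x ⊴ D_x`: `Gal(E/K'_w) ⊴ Gal(E/K_v)` for `K = L^H`, `K' = L^N`. -/
noncomputable abbrev MxJ : Subgroup (Dx q L H x) := Layer.Mx (jE q L) H N x

/-- the local layer `(Gal(K'_w/K_v), K'_wˣ)` in abstract form
`(D_x ⧸ M_x, (Eˣ)^{M_x})`. -/
noncomputable abbrev locLayer : Rep.{0} ℤ (Dx q L H x ⧸ MxJ q L H N x) :=
  Layer.Bx (jE q L) (EUnits q L) H N x

omit [N.Normal] in
lemma mem_MxJ (τ : Dx q L H x) :
    τ ∈ MxJ q L H N x ↔ ∃ h : x⁻¹ * jE q L τ * x ∈ H, (⟨_, h⟩ : H) ∈ N :=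
  ⟨fun h => ⟨τ.2, h⟩, fun ⟨_, h⟩ => h⟩

/-- `(Res_H Jq)^N ≅ (Res_H Coind_{jE} Eˣ)^N`. -/
noncomputable def invJqIso :
    (Mackey.resCoind (jE q L) (EUnits q L) H).quotientToInvariants N ≅
      (Rep.res H.subtype (Jq q L)).quotientToInvariants N :=
  (Rep.quotientToInvariantsFunctor.{0} ℤ N).mapIso (resJqIso q L H)

variable [FiniteDimensional ℚ L]

open Limits in
/-- **`Hⁿ(H/N, (Jq)^N) ≅ ⨁_{x ∈ D\\G/H} Hⁿ(D_x/M_x, (Eˣ)^{M_x})`.** -/
noncomputable def HnLayerIso (n : ℕ) {R : Finset (GalL L)} (hR : Mackey.IsRepr (jE q L) H R) :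
    groupCohomology ((Rep.res H.subtype (Jq q L)).quotientToInvariants N) n ≅
      ⨁ (fun x : R => groupCohomology (locLayer q L H N (x : GalL L)) n) :=
  (groupCohomology.functor ℤ (H ⧸ N) n).mapIso (invJqIso q L H N).symm ≪≫
    Layer.layerIso (jE q L) (EUnits q L) H N n hR

/-- cardinality form. -/
theorem card_Hn_layer (n : ℕ) {R : Finset (GalL L)} (hR : Mackey.IsRepr (jE q L) H R) :
    Nat.card (groupCohomology ((Rep.res H.subtype (Jq q L)).quotientToInvariants N) n) =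
      ∏ x : R, Nat.card (groupCohomology (locLayer q L H N (x : GalL L)) n) := by
  rw [← Nat.card_pi]
  exact Nat.card_congr
    ((HnLayerIso q L H N n hR ≪≫ ModuleCat.biproductIsoPi _).toLinearEquiv.toEquiv)

/-- **`H¹(H/N, (Jq)^N) = 0`** for every layer (inflation is injective on `H¹`). -/
theorem isZero_H1_layer :
    Limits.IsZero (groupCohomology ((Rep.res H.subtype (Jq q L)).quotientToInvariants N) 1) := by
  have hmono : Mono (groupCohomology.H1InfRes (Rep.res H.subtype (Jq q L)) N).f := inferInstance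
  have hz : Limits.IsZero (groupCohomology (Rep.res H.subtype (Jq q L)) 1) :=
    isZero_H1_Jq q L H
  rw [Limits.IsZero.iff_id_eq_zero]
  exact (cancel_mono (groupCohomology.H1InfRes (Rep.res H.subtype (Jq q L)) N).f).1
    (hz.eq_of_tgt _ _)

end Fermat.Agent.S55.Idele73.LayerJq
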