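/-
S55 / 15-IDELE (helper73): single-place elements of a coinduced representation
(functions supported on one double coset `φ(Γ) x H`), decomposition of `H`-invariants, and the
corestriction formula: the `H/N'`-norm of the single-place element with value `a` is the
single-place element with value the local norm of `a`.  Mathlib only (+ Mackey).
-/
import Mathlib
import Fermat.Agent.S55.Idele73.Mackey

set_option autoImplicit false

namespace Fermat.Agent.S55.Idele73.Single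

open CategoryTheory Mackey

variable {k : Type} [CommRing k] {Γ G : Type} [Group Γ] [Group G] (φ : Γ →* G) (A : Rep.{0} k Γ)
variable (H : Subgroup G) (x : G)

/-- the constant function `a` on `H`, as an element of the `x`-component. -/
noncomputable def constComp (a : A.V) (ha : ∀ τ ∈ twSub φ H x, A.ρ τ a = a) :
    (comp φ A H x).V :=
  ⟨fun _ => a, fun τ _ => (ha τ.1 τ.2).symm⟩

/-- the single-place element: `φ τ * x * h ↦ τ a`, zero off the double coset `φ(Γ) x H`. -/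
noncomputable def single (a : A.V) (ha : ∀ τ ∈ twSub φ H x, A.ρ τ a = a) : (Rep.coind φ A).V :=
  (fromComp φ A H x).hom (constComp φ A H x a ha)

variable {φ A H x}

lemma single_apply_of_eq {a : A.V} (ha : ∀ τ ∈ twSub φ H x, A.ρ τ a = a) {g : G} (τ : Γ) (h : H)
    (e : g = φ τ * x * h) : (single φ A H x a ha).1 g = A.ρ τ a :=
  ext0_of_eq φ A H x (constComp φ A H x a ha) τ h e

lemma single_apply_of_not {a : A.V} (ha : ∀ τ ∈ twSub φ H x, A.ρ τ a = a) {g : G}
    (hg : ¬ InDC φ H x g) : (single φ A H x a ha).1 g = 0 :=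
  ext0_of_not φ A H x (constComp φ A H x a ha) hg

lemma single_apply_self {a : A.V} (ha : ∀ τ ∈ twSub φ H x, A.ρ τ a = a) :
    (single φ A H x a ha).1 x = a := by
  rw [single_apply_of_eq ha 1 1 (by simp), map_one]; rfl

/-- single-place elements are `H`-invariant. -/
lemma rho_single {a : A.V} (ha : ∀ τ ∈ twSub φ H x, A.ρ τ a = a) {h : G} (hh : h ∈ H) :
    (Rep.coind φ A).ρ h (single φ A H x a ha) = single φ A H x a ha := by
  apply Subtype.ext
  funext g
  change (single φ A H x a ha).1 (g * h) = (single φ A H x a ha).1 g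
  by_cases hg : InDC φ H x g
  · obtain ⟨τ, h₁, e⟩ := hg
    rw [single_apply_of_eq ha τ h₁ e,
      single_apply_of_eq ha τ (h₁ * ⟨h, hh⟩) (by rw [e, Subgroup.coe_mul, mul_assoc])]
  · rw [single_apply_of_not ha hg,
      single_apply_of_not ha (fun h' => hg ((inDC_mul_right φ H x ⟨h, hh⟩).1 h'))]

/-- values of `H`-invariant elements are `Γ_x`-invariant. -/
lemma eval_invariant {f : (Rep.coind φ A).V} (hf : ∀ h ∈ H, (Rep.coind φ A).ρ h f = f)
    {τ : Γ} (hτ : τ ∈ twSub φ H x) : A.ρ τ (f.1 x) = f.1 x := by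
  have h1 : f.1 (φ τ * x) = A.ρ τ (f.1 x) := f.2 τ x
  have h2 := congrArg (fun F : (Rep.coind φ A).V => F.1 x) (hf _ hτ)
  change f.1 (x * (x⁻¹ * φ τ * x)) = f.1 x at h2
  rw [← h1, ← h2]
  simp only [mul_assoc, mul_inv_cancel_left]

/-- **decomposition of `H`-invariants into single-place elements.** -/
theorem eq_sum_single {R : Finset G} (hR : IsRepr φ H R) {f : (Rep.coind φ A).V}
    (hf : ∀ h ∈ H, (Rep.coind φ A).ρ h f = f) :
    f = ∑ x ∈ R.attach, single φ A H (x : G) (f.1 x) (fun _ hτ => eval_invariant hf hτ) := by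
  classical
  apply Subtype.ext
  funext g
  rw [Submodule.coe_sum, Finset.sum_apply]
  obtain ⟨x₀, hx₀, hg⟩ := hR.1 g
  rw [Finset.sum_eq_single (⟨x₀, hx₀⟩ : R)]
  · obtain ⟨τ, h, e⟩ := hg
    rw [single_apply_of_eq _ τ h e, e, mul_assoc]
    have h1 : f.1 (φ τ * (x₀ * h)) = A.ρ τ (f.1 (x₀ * h)) := f.2 τ (x₀ * h)
    have h2 := congrArg (fun F : (Rep.coind φ A).V => F.1 x₀) (hf _ h.2)
    change f.1 (x₀ * h) = f.1 x₀ at h2
    rw [h1, h2]
  · intro y _ hne
    apply single_apply_of_not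
    intro hgy
    apply hne
    apply Subtype.ext
    exact hR.2 y y.2 x₀ hx₀ (inDC_trans φ H y hgy (inDC_comm φ H x₀ hg))
  · intro h; exact absurd (Finset.mem_attach _ _) h

/-! ### The corestriction formula -/

/-- abstract counting lemma. -/
lemma sum_eq_sum_of_rel {ι κ M : Type} [AddCommMonoid M] (T : Finset ι) (Tx : Finset κ)
    (P : κ → ι → Prop) (F : ι → M) (v : κ → M)
    (h1 : ∀ s ∈ Tx, ∃! t, t ∈ T ∧ P s t)
    (h2 : ∀ t ∈ T, ∀ s ∈ Tx, ∀ s' ∈ Tx, P s t → P s' t → s = s')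
    (h3 : ∀ t ∈ T, ∀ s ∈ Tx, P s t → F t = v s)
    (h4 : ∀ t ∈ T, (∀ s ∈ Tx, ¬ P s t) → F t = 0) :
    ∑ t ∈ T, F t = ∑ s ∈ Tx, v s := by
  classical
  have hF : ∀ t ∈ T, F t = ∑ s ∈ Tx, if P s t then v s else 0 := by
    intro t ht
    by_cases hex : ∃ s ∈ Tx, P s t
    · obtain ⟨s, hs, hP⟩ := hex
      rw [Finset.sum_eq_single s]
      · rw [if_pos hP]; exact h3 t ht s hs hP
      · intro s' hs' hne
        rw [if_neg]
        intro hP'
        exact hne (h2 t ht s' hs' s hs hP' hP)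
      · intro h; exact absurd hs h
    · rw [h4 t ht (fun s hs hP => hex ⟨s, hs, hP⟩)]
      symm
      apply Finset.sum_eq_zero
      intro s hs
      rw [if_neg (fun hP => hex ⟨s, hs, hP⟩)]
  rw [Finset.sum_congr rfl hF, Finset.sum_comm]
  apply Finset.sum_congr rfl
  intro s hs
  obtain ⟨t, ⟨ht, hP⟩, huniq⟩ := h1 s hs
  rw [Finset.sum_eq_single t]
  · rw [if_pos hP]
  · intro t' ht' hne
    rw [if_neg]
    intro hP'
    exact hne (huniq t' ⟨ht', hP'⟩)
  · intro h; exact absurd ht h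

variable (φ A H x)

/-- the local norm `∑ s ∈ Tx, s a` is `Γ_x^H`-invariant. -/
theorem rho_sum_transversal (N' : Subgroup G)
    (Tx : Finset Γ) (hTxH : ∀ s ∈ Tx, s ∈ twSub φ H x)
    (hTx : ∀ σ ∈ twSub φ H x, ∃! s, s ∈ Tx ∧ s⁻¹ * σ ∈ twSub φ N' x)
    (a : A.V) (ha : ∀ τ ∈ twSub φ N' x, A.ρ τ a = a) {τ : Γ} (hτ : τ ∈ twSub φ H x) :
    A.ρ τ (∑ s ∈ Tx, A.ρ s a) = ∑ s ∈ Tx, A.ρ s a := by
  rw [map_sum]
  symm
  apply sum_eq_sum_of_rel Tx Tx (fun s t => t⁻¹ * (τ * s) ∈ twSub φ N' x)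
  · intro s hs
    exact hTx (τ * s) ((twSub φ H x).mul_mem hτ (hTxH s hs))
  · intro t _ s hs s' hs' hP hP'
    have hmem : s⁻¹ * s' ∈ twSub φ N' x := by
      have := (twSub φ N' x).mul_mem ((twSub φ N' x).inv_mem hP) hP'
      convert this using 1
      group
    obtain ⟨s₀, _, huniq⟩ := hTx s' (hTxH s' hs')
    rw [huniq s ⟨hs, hmem⟩, huniq s' ⟨hs', by rw [inv_mul_cancel]; exact one_mem _⟩]
  · intro t _ s _ hP
    have : τ * s = t * (t⁻¹ * (τ * s)) := by group
    rw [← Module.End.mul_apply, ← map_mul, this, map_mul, Module.End.mul_apply, ha _ hP]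
  · intro t ht hno
    exfalso
    obtain ⟨s, ⟨hs, hsmem⟩, _⟩ := hTx (τ⁻¹ * t)
      ((twSub φ H x).mul_mem ((twSub φ H x).inv_mem hτ) (hTxH t ht))
    apply hno s hs
    have := (twSub φ N' x).inv_mem hsmem
    convert this using 1
    group

/-- **Corestriction formula.** `N' ≤ H` subgroups of `G`, `T` a left transversal of `N'` in `H`,
`Tx` a left transversal of `Γ_x^{N'}` in `Γ_x^H`: the sum of the `T`-translates of the single-place
element (for `N'`) with value `a` is the single-place element (for `H`) with value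
`∑ s ∈ Tx, s a` (the local norm). -/
theorem sum_rho_single (N' : Subgroup G) (hN : N' ≤ H) (T : Finset G) (hTH : ∀ t ∈ T, t ∈ H)
    (hT : ∀ h ∈ H, ∃! t, t ∈ T ∧ t⁻¹ * h ∈ N')
    (Tx : Finset Γ) (hTxH : ∀ s ∈ Tx, s ∈ twSub φ H x)
    (hTx : ∀ σ ∈ twSub φ H x, ∃! s, s ∈ Tx ∧ s⁻¹ * σ ∈ twSub φ N' x)
    (a : A.V) (ha : ∀ τ ∈ twSub φ N' x, A.ρ τ a = a)
    (hsum : ∀ τ ∈ twSub φ H x, A.ρ τ (∑ s ∈ Tx, A.ρ s a) = ∑ s ∈ Tx, A.ρ s a) :
    ∑ t ∈ T, (Rep.coind φ A).ρ t (single φ A N' x a ha) =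
      single φ A H x (∑ s ∈ Tx, A.ρ s a) hsum := by
  classical
  apply Subtype.ext
  funext g
  have hL : ((∑ t ∈ T, (Rep.coind φ A).ρ t (single φ A N' x a ha) : (Rep.coind φ A).V)).1 g
      = ∑ t ∈ T, (single φ A N' x a ha).1 (g * t) := by
    rw [Submodule.coe_sum, Finset.sum_apply]
    rfl
  rw [hL]
  by_cases hg : InDC φ H x g
  · obtain ⟨τ, h₀, e⟩ := hg
    rw [single_apply_of_eq hsum τ h₀ e, map_sum]
    -- the relation `P s t : d_s⁻¹ * h₀ * t ∈ N'`
    apply sum_eq_sum_of_rel T Tx (fun s t => (x⁻¹ * φ s * x)⁻¹ * (h₀ : G) * t ∈ N')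
    · intro s hs
      have hmem : (h₀ : G)⁻¹ * (x⁻¹ * φ s * x) ∈ H := H.mul_mem (H.inv_mem h₀.2) (hTxH s hs)
      obtain ⟨t, ⟨ht, hP⟩, huniq⟩ := hT _ hmem
      refine ⟨t, ⟨ht, ?_⟩, ?_⟩
      · have := N'.inv_mem hP
        convert this using 1
        group
      · rintro t' ⟨ht', hP'⟩
        apply huniq t' ⟨ht', ?_⟩
        have := N'.inv_mem hP'
        convert this using 1
        group
    · intro t _ s _ s' hs' hP hP'
      have hmem : s⁻¹ * s' ∈ twSub φ N' x := by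
        rw [mem_twSub]
        have := N'.mul_mem hP (N'.inv_mem hP')
        convert this using 1
        rw [map_mul, map_inv]
        group
      obtain ⟨s₀, _, huniq⟩ := hTx s' (hTxH s' hs')
      rw [huniq s ⟨‹s ∈ Tx›, hmem⟩, huniq s' ⟨hs', by rw [inv_mul_cancel]; exact one_mem _⟩]
    · intro t _ s _ hP
      have e' : g * t = φ (τ * s) * x * ((⟨_, hP⟩ : N') : G) := by
        rw [e, map_mul]
        group
      rw [single_apply_of_eq ha (τ * s) ⟨_, hP⟩ e', map_mul]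
      rfl
    · intro t _ hno
      apply single_apply_of_not
      rintro ⟨σ', n, e'⟩
      -- `σ := τ⁻¹ σ' ∈ Γ_x^H`
      have hσ : x⁻¹ * φ (τ⁻¹ * σ') * x = (h₀ : G) * t * (n : G)⁻¹ := by
        have : φ σ' * x = φ τ * x * h₀ * t * (n : G)⁻¹ := by
          rw [← e, e']; group
        rw [map_mul, map_inv, mul_assoc, mul_assoc, this]; group
      have hσH : τ⁻¹ * σ' ∈ twSub φ H x := by
        rw [mem_twSub, hσ]
        exact H.mul_mem (H.mul_mem h₀.2 (hTH t ‹t ∈ T›)) (H.inv_mem (hN n.2))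
      obtain ⟨s, ⟨hs, hsmem⟩, _⟩ := hTx _ hσH
      apply hno s hs
      rw [mem_twSub] at hsmem
      have := N'.mul_mem hsmem n.2
      convert this using 1
      rw [map_mul, map_inv, map_mul, map_inv]
      have hσ' : φ σ' = φ τ * x * (h₀ : G) * t * (n : G)⁻¹ * x⁻¹ := by
        have : φ σ' * x = φ τ * x * h₀ * t * (n : G)⁻¹ := by
          rw [← e, e']; group
        rw [← this]; group
      rw [hσ']
      group
  · rw [single_apply_of_not hsum hg]
    apply Finset.sum_eq_zero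
    intro t ht
    apply single_apply_of_not
    rintro ⟨σ', n, e'⟩
    apply hg
    refine ⟨σ', ⟨(n : G) * t⁻¹, H.mul_mem (hN n.2) (H.inv_mem (hTH t ht))⟩, ?_⟩
    have : g = φ σ' * x * n * t⁻¹ := by rw [← e']; group
    rw [this]
    simp only [mul_assoc]

end Fermat.Agent.S55.Idele73.Single
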