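/-
S55 / 15-IDELE (helper73): the local field `K_v = ℚ_q(ι(x K)) ≤ PadicAlgCl q` of the place of
`K = L^H` attached to the double coset `D x H`, and its Galois group
`Gal(PadicAlgCl q/K_v) = Mackey.twSub (locHom q L) H x`.
-/
import Mathlib
import Fermat.Agent.S55.Idele73.Basic
import Fermat.Agent.S55.Idele73.Mackey
import Fermat.Agent.S55.Idele73.Single

set_option autoImplicit false

namespace Fermat.Agent.S55.Idele73.PlaceField

open CategoryTheory Basic

variable (q : ℕ) [Fact q.Prime] (L : IntermediateField ℚ Qbar) [Normal ℚ L]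
variable (H : Subgroup (GalL L)) (x : GalL L)

/-- the embedding `ι ∘ x : L → PadicAlgCl q` attached to `x ∈ Gal(L/ℚ)`. -/
noncomputable def embx : L →+* PadicAlgCl q := (iotaL q L).comp (x : L →+* L)

lemma embx_apply (y : L) : embx q L x y = iotaL q L (x y) := rfl

lemma embx_locHom_mul (τ : Gq q) (y : L) :
    embx q L (locHom q L τ * x) y = τ (embx q L x y) := by
  rw [embx_apply, embx_apply, ← iotaL_locHom]; rfl

/-- the local field `K_v = ℚ_q(ι(x K))`, `K = L^H`. -/
noncomputable def Kv : IntermediateField ℚ_[q] (PadicAlgCl q) :=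
  IntermediateField.adjoin ℚ_[q] (embx q L x '' (IntermediateField.fixedField H : Set L))

lemma embx_mem_Kv {y : L} (hy : y ∈ IntermediateField.fixedField H) :
    embx q L x y ∈ Kv q L H x :=
  IntermediateField.subset_adjoin _ _ ⟨y, hy, rfl⟩

variable [FiniteDimensional ℚ L]

/-- `τ ∈ Γ_x` iff `τ` fixes `ι(x K)` pointwise. -/
lemma mem_twSub_locHom_iff (τ : Gq q) :
    τ ∈ Mackey.twSub (locHom q L) H x ↔
      ∀ y ∈ IntermediateField.fixedField H, τ (embx q L x y) = embx q L x y := by
  rw [Mackey.mem_twSub]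
  constructor
  · intro hτ y hy
    rw [embx_apply, ← iotaL_locHom]
    congr 1
    have h1 : (x⁻¹ * locHom q L τ * x) y = y := hy ⟨_, hτ⟩
    have h2 : (x⁻¹ * locHom q L τ * x) y = x⁻¹ (locHom q L τ (x y)) := rfl
    rw [h2] at h1
    have := congrArg x h1
    rwa [show x (x⁻¹ (locHom q L τ (x y))) = locHom q L τ (x y) from
      AlgEquiv.apply_symm_apply x _] at this
  · intro hτ
    rw [← IntermediateField.fixingSubgroup_fixedField H, IntermediateField.mem_fixingSubgroup_iff]
    intro y hy
    have h1 := hτ y hy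
    rw [embx_apply, ← iotaL_locHom] at h1
    have h2 := iotaL_injective q L h1
    change x⁻¹ (locHom q L τ (x y)) = y
    rw [h2]
    exact AlgEquiv.symm_apply_apply x y

/-- **`Gal(PadicAlgCl q/K_v) = Γ_x`.** -/
theorem twSub_locHom_eq :
    Mackey.twSub (locHom q L) H x = (Kv q L H x).fixingSubgroup := by
  ext τ
  rw [mem_twSub_locHom_iff, Kv, IntermediateField.mem_fixingSubgroup_iff]
  constructor
  · intro h a ha
    -- the fixed field of `τ` contains the generators
    have hle : IntermediateField.adjoin ℚ_[q]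
        (embx q L x '' (IntermediateField.fixedField H : Set L)) ≤
        IntermediateField.fixedField (Subgroup.zpowers τ) := by
      rw [IntermediateField.adjoin_le_iff]
      rintro _ ⟨y, hy, rfl⟩
      rw [SetLike.mem_coe, IntermediateField.mem_fixedField_iff]
      intro σ hσ
      obtain ⟨n, rfl⟩ := Subgroup.mem_zpowers_iff.1 hσ
      have hfix : ∀ m : ℕ, (τ ^ m) (embx q L x y) = embx q L x y := by
        intro m
        induction m with
        | zero => rfl
        | succ m ih => rw [pow_succ, AlgEquiv.mul_apply, h y hy, ih]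
      cases n with
      | ofNat m => exact hfix m
      | negSucc m =>
        rw [zpow_negSucc]
        have := hfix (m + 1)
        exact (AlgEquiv.symm_apply_eq _).2 this.symm
    have := (IntermediateField.mem_fixedField_iff _ _).1 (hle ha) τ (Subgroup.mem_zpowers τ)
    exact this
  · intro h y hy
    exact h _ (IntermediateField.subset_adjoin _ _ ⟨y, hy, rfl⟩)

/-- elements of `K_v` are fixed by `Γ_x`. -/
lemma apply_eq_of_mem_Kv {a : PadicAlgCl q} (ha : a ∈ Kv q L H x) {τ : Gq q}
    (hτ : τ ∈ Mackey.twSub (locHom q L) H x) : τ a = a := by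
  rw [twSub_locHom_eq] at hτ
  exact (IntermediateField.mem_fixingSubgroup_iff _ _).1 hτ a ha

/-- units of `K_v` are `Γ_x`-invariant elements of `localUnits q` (the hypothesis `ha` of
`Single.single (locHom q L) (localUnits q) H x`). -/
lemma rho_eq_of_mem_Kv {u : (PadicAlgCl q)ˣ} (hu : (u : PadicAlgCl q) ∈ Kv q L H x) (τ : Gq q)
    (hτ : τ ∈ Mackey.twSub (locHom q L) H x) :
    (localUnits q).ρ τ (Additive.ofMul u) = Additive.ofMul u := by
  change Additive.ofMul (Units.map (τ : PadicAlgCl q →* PadicAlgCl q) u) = Additive.ofMul u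
  congr 1
  apply Units.ext
  exact apply_eq_of_mem_Kv q L H x hu hτ

/-- the single-place idele of `K = L^H` at the place `D x H` with value `u ∈ K_vˣ`. -/
noncomputable def singleIdele (u : (PadicAlgCl q)ˣ) (hu : (u : PadicAlgCl q) ∈ Kv q L H x) :
    (Jq q L).V :=
  Single.single (locHom q L) (localUnits q) H x (Additive.ofMul u)
    (fun τ hτ => rho_eq_of_mem_Kv q L H x hu τ hτ)

/-- conversely, `Γ_x`-fixed elements lie in `K_v` (infinite Galois correspondence). -/
lemma mem_Kv_of_fixed {a : PadicAlgCl q}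
    (ha : ∀ τ ∈ Mackey.twSub (locHom q L) H x, τ a = a) : a ∈ Kv q L H x := by
  have : IsGalois ℚ_[q] (PadicAlgCl q) :=
    { to_isSeparable := Algebra.IsAlgebraic.isSeparable_of_perfectField
      to_normal := IsAlgClosure.normal ℚ_[q] (PadicAlgCl q) }
  rw [← InfiniteGalois.fixedField_fixingSubgroup (Kv q L H x), IntermediateField.mem_fixedField_iff]
  intro τ hτ
  rw [← twSub_locHom_eq] at hτ
  exact ha τ hτ

end Fermat.Agent.S55.Idele73.PlaceField
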