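/-
S55 / 15-IDELE (helper73): Hilbert 90 for `Lˣ` in ELEMENTWISE form, for a subgroup `H ≤ Gal(L/ℚ)` and
for a subgroup `N ≤ H` — the literal hypothesis `hH90` of `FirstIneq27.Layer.layer_first_ineq` (31)
and of `SecondInst53.AbsPsi.psi_surjective` (32c-B) for `X := Lx L`.
-/
import Mathlib
import Fermat.Agent.S55.Idele73.Components
import Fermat.Agent.S55.Descent99

set_option autoImplicit false
set_option linter.unusedSectionVars false

namespace Fermat.Agent.S55.Idele73.H90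

open CategoryTheory Basic Local Components

section Generic

variable {k G : Type} [CommRing k] [Group G] (X : Rep.{0, 0, 0} k G)

/-- elementwise `H¹(N, X) = 0` for a subgroup `N` of a subgroup `H` of `G`, from the vanishing of
`H¹` of the image of `N` in `G`. -/
theorem exists_eq_sub_of_isZero_H1_sub (H : Subgroup G) (N : Subgroup H)
    (h1 : Limits.IsZero (groupCohomology (Rep.res (N.map H.subtype).subtype X) 1))
    (z : N → X.V) (hz : ∀ n m : N, z (n * m) = X.ρ ((n : H) : G) (z m) + z n) :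
    ∃ y : X.V, ∀ n : N, X.ρ ((n : H) : G) y - y = z n := by
  have hH : ∀ n' : N.map H.subtype, (n' : G) ∈ H := by
    rintro ⟨_, n, _, rfl⟩
    exact n.2
  have hN : ∀ n' : N.map H.subtype, (⟨(n' : G), hH n'⟩ : H) ∈ N := by
    rintro ⟨_, n, hn, rfl⟩
    exact hn
  obtain ⟨y, hy⟩ := Descent99.exists_eq_sub_of_isZero_H1 X (N.map H.subtype) h1
    (fun n' => z ⟨⟨(n' : G), hH n'⟩, hN n'⟩) (fun n' m' => hz ⟨⟨_, hH n'⟩, hN n'⟩ ⟨⟨_, hH m'⟩, hN m'⟩)
  refine ⟨y, fun n => ?_⟩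
  exact hy ⟨((n : H) : G), ⟨(n : H), n.2, rfl⟩⟩

end Generic

variable (L : IntermediateField ℚ Qbar) [Normal ℚ L] [FiniteDimensional ℚ L]

/-- **Hilbert 90 for `Lˣ`, elementwise, for a subgroup `H ≤ Gal(L/ℚ)`** (`hH90` of 32c-B). -/
theorem hH90_Lx (H : Subgroup (GalL L)) (z : H → (Lx L).V)
    (hz : ∀ s t : H, z (s * t) = (Lx L).ρ (s : GalL L) (z t) + z s) :
    ∃ y : (Lx L).V, ∀ s : H, (Lx L).ρ (s : GalL L) y - y = z s :=
  Descent99.exists_eq_sub_of_isZero_H1 (Lx L) H (isZero_H1_resUnits H) z hz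

/-- **Hilbert 90 for `Lˣ`, elementwise, for `N ≤ H ≤ Gal(L/ℚ)`** (`hH90` of
`FirstIneq27.Layer.layer_first_ineq`, literal). -/
theorem hH90_Lx_layer (H : Subgroup (GalL L)) (N : Subgroup H) (z : N → (Lx L).V)
    (hz : ∀ n m : N, z (n * m) = (Lx L).ρ ((n : H) : GalL L) (z m) + z n) :
    ∃ y : (Lx L).V, ∀ n : N, (Lx L).ρ ((n : H) : GalL L) y - y = z n :=
  exists_eq_sub_of_isZero_H1_sub (Lx L) H N (isZero_H1_resUnits (N.map H.subtype)) z hz

/-- the same for the idele component `Jq q L` (semi-local Hilbert 90), subgroup form. -/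
theorem hH90_Jq (q : ℕ) [Fact q.Prime] (H : Subgroup (GalL L)) (z : H → (Jq q L).V)
    (hz : ∀ s t : H, z (s * t) = (Jq q L).ρ (s : GalL L) (z t) + z s) :
    ∃ y : (Jq q L).V, ∀ s : H, (Jq q L).ρ (s : GalL L) y - y = z s :=
  Descent99.exists_eq_sub_of_isZero_H1 (Jq q L) H (isZero_H1_Jq q L H) z hz

/-- the same for `Jq q L`, layer form. -/
theorem hH90_Jq_layer (q : ℕ) [Fact q.Prime] (H : Subgroup (GalL L)) (N : Subgroup H)
    (z : N → (Jq q L).V)
    (hz : ∀ n m : N, z (n * m) = (Jq q L).ρ ((n : H) : GalL L) (z m) + z n) :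
    ∃ y : (Jq q L).V, ∀ n : N, (Jq q L).ρ ((n : H) : GalL L) y - y = z n :=
  exists_eq_sub_of_isZero_H1_sub (Jq q L) H N (isZero_H1_Jq q L (N.map H.subtype)) z hz

end Fermat.Agent.S55.Idele73.H90
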