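/-
S55 / 15-IDELE (helper73): a finite direct sum of representations (helper44's `dsRep`) is the
categorical biproduct; consequences for additive functors (cohomology of layers).
-/
import Mathlib
import Fermat.Agent.S55.IdeleVal44.SIdele
import Fermat.Agent.S55.Idele73.Layer

set_option autoImplicit false

namespace Fermat.Agent.S55.Idele73.DirectSumRep

open CategoryTheory Fermat.Agent.S55.IdeleVal44

/-- an additive map between `ℤ`-modules (arbitrary module instances) is linear. -/
def linOfAdd {M N : Type} [AddCommGroup M] [AddCommGroup N] (hM : Module ℤ M) (hN : Module ℤ N)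
    (f : M →+ N) : @LinearMap ℤ ℤ _ _ (RingHom.id ℤ) M N _ _ hM hN where
  toFun := f
  map_add' := f.map_add
  map_smul' c x := by
    have e1 : hM = AddCommGroup.toIntModule M := Subsingleton.elim _ _
    have e2 : hN = AddCommGroup.toIntModule N := Subsingleton.elim _ _
    subst e1 e2
    exact map_zsmul f c x

/-- a morphism of `ℤ`-representations from an equivariant additive map (robust against the
`Module ℤ` instance diamond). -/
noncomputable def homOfAdd {G : Type} [Group G] {X Y : Rep.{0} ℤ G} (f : X.V →+ Y.V)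
    (hf : ∀ g x, f (X.ρ g x) = Y.ρ g (f x)) : X ⟶ Y :=
  @Rep.ofHom ℤ G _ _ X.V Y.V _ _ X.hV2 Y.hV2 X.ρ Y.ρ
    (@Representation.IntertwiningMap.mk ℤ G X.V Y.V _ _ _ _ X.hV2 Y.hV2 X.ρ Y.ρ
      (linOfAdd X.hV2 Y.hV2 f)
      (fun g => DFunLike.ext _ _ (fun x => hf g x)))

lemma homOfAdd_hom_apply {G : Type} [Group G] {X Y : Rep.{0} ℤ G} (f : X.V →+ Y.V)
    (hf : ∀ g x, f (X.ρ g x) = Y.ρ g (f x)) (x : X.V) : (homOfAdd f hf).hom x = f x := rfl

/-- evaluation of morphisms at a vector, additively. -/
noncomputable def evalAt {G : Type} [Group G] {X Y : Rep.{0} ℤ G} (x : X.V) : (X ⟶ Y) →+ Y.V where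
  toFun f := f.hom x
  map_zero' := rfl
  map_add' _ _ := rfl

lemma sum_hom_apply {G : Type} [Group G] {X Y : Rep.{0} ℤ G} {κ : Type} (s : Finset κ)
    (f : κ → (X ⟶ Y)) (x : X.V) : (∑ j ∈ s, f j).hom x = ∑ j ∈ s, (f j).hom x :=
  map_sum (evalAt x) f s

variable {G : Type} [Group G] {ι : Type} [Fintype ι] [DecidableEq ι] (A : ι → Rep.{0} ℤ G)

/-- the `i`-th coordinate, additively. -/
noncomputable def projAdd (i : ι) : (dsRep A).V →+ (A i).V where
  toFun x := dsRep.toDS A x i
  map_zero' := rfl
  map_add' _ _ := rfl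

/-- the `i`-th inclusion, additively. -/
noncomputable def inclAdd (i : ι) : (A i).V →+ (dsRep A).V where
  toFun a := dsRep.ofDS A (DirectSum.of (fun i => (A i).V) i a)
  map_zero' := by
    change dsRep.ofDS A (DirectSum.of (fun i => (A i).V) i 0) = 0
    rw [map_zero]; rfl
  map_add' a b := by
    change dsRep.ofDS A (DirectSum.of (fun i => (A i).V) i (a + b)) = _
    rw [map_add]; rfl

lemma projAdd_inclAdd (i j : ι) (a : (A i).V) :
    projAdd A j (inclAdd A i a) = if h : i = j then h ▸ a else 0 := by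
  change (DirectSum.of (fun i => (A i).V) i a) j = _
  by_cases h : i = j
  · subst h
    rw [dif_pos rfl, DirectSum.of_eq_same]
  · rw [dif_neg h, DirectSum.of_eq_of_ne _ _ _ (Ne.symm h)]

/-- the `i`-th coordinate. -/
noncomputable def proj (i : ι) : dsRep A ⟶ A i :=
  homOfAdd (projAdd A i) (fun _ _ => rfl)

/-- the `i`-th inclusion. -/
noncomputable def incl (i : ι) : A i ⟶ dsRep A :=
  homOfAdd (inclAdd A i) (fun g a => by
        apply dsRep.ext
        intro j
        change projAdd A j (inclAdd A i ((A i).ρ g a)) = (A j).ρ g (projAdd A j (inclAdd A i a))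
        rw [projAdd_inclAdd, projAdd_inclAdd]
        by_cases h : i = j
        · subst h; rw [dif_pos rfl, dif_pos rfl]
        · rw [dif_neg h, dif_neg h, map_zero])

lemma proj_hom_apply (i : ι) (x : (dsRep A).V) : (proj A i).hom x = dsRep.toDS A x i := rfl

lemma incl_hom_apply (i : ι) (a : (A i).V) :
    (incl A i).hom a = dsRep.ofDS A (DirectSum.of (fun i => (A i).V) i a) := rfl

/-- the bicone on `dsRep A`. -/
noncomputable def bicone : Limits.Bicone A where
  pt := dsRep A
  π := proj A
  ι := incl A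
  ι_π i j := by
    apply Rep.hom_ext
    refine DFunLike.ext _ _ (fun a => ?_)
    change projAdd A j (inclAdd A i a) = _
    rw [projAdd_inclAdd]
    by_cases h : i = j
    · subst h
      rw [dif_pos rfl, dif_pos rfl]
      rfl
    · rw [dif_neg h, dif_neg h]
      rfl

lemma bicone_total : ∑ j : ι, (bicone A).π j ≫ (bicone A).ι j = 𝟙 (bicone A).pt := by
  classical
  apply Rep.hom_ext
  refine DFunLike.ext _ _ (fun x => ?_)
  rw [sum_hom_apply]
  apply dsRep.ext
  intro i
  change dsRep.toDS A (∑ j : ι, inclAdd A j (projAdd A j x)) i = dsRep.toDS A x i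
  have : dsRep.toDS A (∑ j : ι, inclAdd A j (projAdd A j x)) i
      = ∑ j : ι, projAdd A i (inclAdd A j (projAdd A j x)) := by
    rw [← map_sum (projAdd A i)]; rfl
  rw [this, Finset.sum_eq_single i]
  · rw [projAdd_inclAdd, dif_pos rfl]; rfl
  · intro j _ hne
    rw [projAdd_inclAdd, dif_neg hne]
  · intro h; exact absurd (Finset.mem_univ i) h

instance hasFiniteBiproducts_rep'' : Limits.HasFiniteBiproducts (Rep.{0} ℤ G) :=
  Abelian.hasFiniteBiproducts

/-- **`dsRep A ≅ ⨁ A`** for a finite family. -/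
noncomputable def dsRepIso : dsRep A ≅ ⨁ A :=
  Limits.biproduct.uniqueUpToIso A (Limits.isBilimitOfTotal (bicone A) (bicone_total A))

/-! ### Cohomology of the layers of a finite direct sum -/

variable (H : Subgroup G) (N : Subgroup H) [N.Normal]

/-- the functor `M ↦ Hⁿ(H/N, (Res_H M)^N)`. -/
noncomputable abbrev layerCoh (n : ℕ) : Rep.{0} ℤ G ⥤ ModuleCat ℤ :=
  Rep.resFunctor H.subtype ⋙ Rep.quotientToInvariantsFunctor.{0} ℤ N ⋙
    groupCohomology.functor ℤ (H ⧸ N) n

instance layerCoh_additive (n : ℕ) : (layerCoh H N n).Additive := by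
  unfold layerCoh
  infer_instance

open Limits in
/-- `Hⁿ(H/N, (dsRep A)^N) ≅ ⨁_i Hⁿ(H/N, (A i)^N)`. -/
noncomputable def layerCohIso (n : ℕ) :
    groupCohomology ((Rep.res H.subtype (dsRep A)).quotientToInvariants N) n ≅
      ⨁ (fun i => groupCohomology ((Rep.res H.subtype (A i)).quotientToInvariants N) n) :=
  (layerCoh H N n).mapIso (dsRepIso A) ≪≫ (layerCoh H N n).mapBiproduct A

theorem card_layerCoh (n : ℕ) :
    Nat.card (groupCohomology ((Rep.res H.subtype (dsRep A)).quotientToInvariants N) n) =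
      ∏ i, Nat.card (groupCohomology ((Rep.res H.subtype (A i)).quotientToInvariants N) n) := by
  rw [← Nat.card_pi]
  exact Nat.card_congr
    ((layerCohIso A H N n ≪≫ ModuleCat.biproductIsoPi _).toLinearEquiv.toEquiv)

theorem isZero_layerCoh (n : ℕ)
    (h0 : ∀ i, Limits.IsZero
      (groupCohomology ((Rep.res H.subtype (A i)).quotientToInvariants N) n)) :
    Limits.IsZero (groupCohomology ((Rep.res H.subtype (dsRep A)).quotientToInvariants N) n) := by
  refine Limits.IsZero.of_iso ?_ (layerCohIso A H N n)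
  rw [Limits.IsZero.iff_id_eq_zero]
  apply Limits.biproduct.hom_ext
  intro i
  exact (h0 i).eq_of_tgt _ _

end Fermat.Agent.S55.Idele73.DirectSumRep
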