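/-
S55 / 15-IDELE (helper73): the local layers `locLayer q L H N x = (D_x ⧸ M_x, (Eˣ)^{M_x})` of the
idele components in helper51's G-field vocabulary (`LocDev51.unitsRep (D_x ⧸ M_x) (E^{M_x})`),
so that the local norm-index theorems apply; cardinality of `H²` of a cyclic layer of the ideles.
-/
import Mathlib
import Fermat.Agent.S55.Idele73.LayerJq
import Fermat.Agent.S55.LocDev51.Quot
import Fermat.Agent.S55.LocDev51.Cyclic

set_option autoImplicit false

namespace Fermat.Agent.S55.Idele73.LocalG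

open CategoryTheory Basic Local Components LayerJq
open Fermat.Agent.S55.LocDev51

attribute [local instance] Fermat.Agent.S55.LocDev51.quotAction

section Generic

variable {F E : Type} [Field F] [Field E] [Algebra F E] (D' : Subgroup (E ≃ₐ[F] E))

/-- `Res_{D'} (Eˣ) = unitsRep D' E`. -/
noncomputable def resUnitsRepIso :
    Rep.res D'.subtype (Rep.ofAlgebraAutOnUnits F E) ≅ unitsRep D' E :=
  Rep.mkIso (Representation.Equiv.mk (LinearEquiv.refl ℤ (Additive Eˣ)) (fun _ => rfl))

variable (N' : Subgroup D') [N'.Normal]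

/-- `((Res_{D'} Eˣ)^{N'}` is the unit module of the `D'/N'`-field `E^{N'}`. -/
noncomputable def layerUnitsRepIso :
    (Rep.res D'.subtype (Rep.ofAlgebraAutOnUnits F E)).quotientToInvariants N' ≅
      unitsRep (D' ⧸ N') (fixedField D' E N') :=
  (Rep.quotientToInvariantsFunctor.{0} ℤ N').mapIso (resUnitsRepIso D') ≪≫ quotIso D' E N'

end Generic

section Global

variable (q : ℕ) [Fact q.Prime] (L : IntermediateField ℚ Qbar) [Normal ℚ L]
variable (H : Subgroup (GalL L)) (N : Subgroup H) [N.Normal] (x : GalL L)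

/-- the field `K'_w = E^{M_x}` (completion of `L^N` at the place attached to `x`), with its action
of `Gal(K'_w/K_v) = D_x ⧸ M_x`. -/
noncomputable abbrev Kw : Subfield (Elev q L) := fixedField (Dx q L H x) (Elev q L) (MxJ q L H N x)

/-- **the local layer in G-field form.** -/
noncomputable def locLayerIso :
    locLayer q L H N x ≅ unitsRep (Dx q L H x ⧸ MxJ q L H N x) (Kw q L H N x) :=
  layerUnitsRepIso (Dx q L H x) (MxJ q L H N x)

/-- `|H²|` of the local layer for a cyclic quotient = local norm index. -/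
theorem card_H2_locLayer [Fintype (Dx q L H x ⧸ MxJ q L H N x)]
    (g : Dx q L H x ⧸ MxJ q L H N x) (hg : ∀ y, y ∈ Subgroup.zpowers g) :
    Nat.card (groupCohomology (locLayer q L H N x) 2) =
      (normUnits (Dx q L H x ⧸ MxJ q L H N x) (Kw q L H N x)).relIndex
        (fixedUnits (Dx q L H x ⧸ MxJ q L H N x) (Kw q L H N x)) := by
  rw [← card_H2_cyclic (Dx q L H x ⧸ MxJ q L H N x) (Kw q L H N x) g hg]
  exact Nat.card_congr
    ((groupCohomology.functor ℤ _ 2).mapIso (locLayerIso q L H N x)).toLinearEquiv.toEquiv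

/-- the local Galois group `D_x ⧸ M_x` embeds in `H ⧸ N`; in particular it is cyclic if `H ⧸ N`
is. -/
lemma isCyclic_quot [IsCyclic (H ⧸ N)] : IsCyclic (Dx q L H x ⧸ MxJ q L H N x) :=
  isCyclic_of_injective (Layer.jx (jE q L) H N x) (Layer.jx_injective (jE q L) H N x)

lemma card_quot_dvd [Finite (H ⧸ N)] :
    Nat.card (Dx q L H x ⧸ MxJ q L H N x) ∣ Nat.card (H ⧸ N) :=
  Subgroup.card_dvd_of_injective (Layer.jx (jE q L) H N x) (Layer.jx_injective (jE q L) H N x)

variable [FiniteDimensional ℚ L]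

/-- **`|H²(H/N, (Jq)^N)| = ∏_{x ∈ D\G/H} [K_vˣ : N K'_wˣ]`** for a cyclic layer. -/
theorem card_H2_layer_cyclic [IsCyclic (H ⧸ N)]
    [∀ x : GalL L, Fintype (Dx q L H x ⧸ MxJ q L H N x)]
    {R : Finset (GalL L)} (hR : Mackey.IsRepr (jE q L) H R) :
    Nat.card (groupCohomology ((Rep.res H.subtype (Jq q L)).quotientToInvariants N) 2) =
      ∏ x : R, (normUnits (Dx q L H x ⧸ MxJ q L H N x) (Kw q L H N x)).relIndex
        (fixedUnits (Dx q L H x ⧸ MxJ q L H N x) (Kw q L H N x)) := by
  rw [card_Hn_layer q L H N 2 hR]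
  apply Finset.prod_congr rfl
  intro x _
  obtain ⟨g, hg⟩ := (isCyclic_quot q L H N (x : GalL L)).exists_generator
  exact card_H2_locLayer q L H N x g hg

/-- same, with the local norm index theorem as a named hypothesis:
`|H²(H/N, (Jq)^N)| = ∏_x |D_x ⧸ M_x|`. -/
theorem card_H2_layer_cyclic_of_normIndex [IsCyclic (H ⧸ N)]
    [∀ x : GalL L, Fintype (Dx q L H x ⧸ MxJ q L H N x)]
    (hloc : ∀ x : GalL L, (normUnits (Dx q L H x ⧸ MxJ q L H N x) (Kw q L H N x)).relIndex
        (fixedUnits (Dx q L H x ⧸ MxJ q L H N x) (Kw q L H N x)) =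
        Nat.card (Dx q L H x ⧸ MxJ q L H N x))
    {R : Finset (GalL L)} (hR : Mackey.IsRepr (jE q L) H R) :
    Nat.card (groupCohomology ((Rep.res H.subtype (Jq q L)).quotientToInvariants N) 2) =
      ∏ x : R, Nat.card (Dx q L H x ⧸ MxJ q L H N x) := by
  rw [card_H2_layer_cyclic q L H N hR]
  exact Finset.prod_congr rfl (fun x _ => hloc x)

end Global

end Fermat.Agent.S55.Idele73.LocalG
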