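/-
S55 / 15-IDELE (helper73): `(Gal(E/ℚ_q), E)` is a local G-field (helper51's `IsLocalGField`), hence
every cyclic local layer has norm index `= degree`, and
`|H²(H/N, (Jq q L)^N)| = ∏_{x ∈ D\G/H} |D_x ⧸ M_x|` for every cyclic layer `N ⊴ H ≤ Gal(L/ℚ)`.
-/
import Mathlib
import Fermat.Agent.S55.Idele73.LocalG
import Fermat.Agent.S55.LocDev51.Local
import Fermat.Agent.S55.LocField17.LocHAdapt

set_option autoImplicit false
set_option linter.unusedSectionVars false

namespace Fermat.Agent.S55.Idele73.LocalIndex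

open CategoryTheory Basic Local Components LayerJq LocalG
open Fermat.Agent.S55.LocDev51

attribute [local instance] Fermat.Agent.S55.LocDev51.quotAction

variable (q : ℕ) [Fact q.Prime] (L : IntermediateField ℚ Qbar) [Normal ℚ L]
  [FiniteDimensional ℚ L]

/-- automorphisms of `E/ℚ_q` are isometries. -/
lemma norm_DE_apply (σ : DE q L) (y : Elev q L) : ‖σ y‖ = ‖y‖ := by
  have := Fermat.Agent.S55.LocField17.norm_algHom (q := q) (L := Elev q L)
    ((Elev q L).val.comp (σ : Elev q L →ₐ[ℚ_[q]] Elev q L)) y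
  exact this

/-- **`(Gal(E/ℚ_q), E)` is a local G-field.** -/
theorem isLocalGField_DE : IsLocalGField (DE q L) (Elev q L) where
  finite := inferInstance
  faithful := inferInstance
  isometric := fun σ y => norm_DE_apply q L σ y
  ultrametric := inferInstance
  proper := inferInstance
  nontrivial := ⟨((q : ℕ) : Elev q L), by
    rw [norm_pos_iff]; exact Fermat.Agent.S55.LocField17.natCast_q_ne_zero (Elev q L),
    Fermat.Agent.S55.LocField17.norm_natCast_q_lt_one (Elev q L)⟩

variable (H : Subgroup (GalL L)) (N : Subgroup H) [N.Normal] (x : GalL L)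

/-- every local layer `(Gal(K'_w/K_v), K'_w)` is a local G-field. -/
theorem isLocalGField_layer :
    IsLocalGField (Dx q L H x ⧸ MxJ q L H N x) (Kw q L H N x) :=
  ((isLocalGField_DE q L).sub (Dx q L H x)).quot (MxJ q L H N x)

/-- the local norm index of a cyclic layer. -/
theorem relIndex_layer [IsCyclic (H ⧸ N)] [Fintype (Dx q L H x ⧸ MxJ q L H N x)] :
    (normUnits (Dx q L H x ⧸ MxJ q L H N x) (Kw q L H N x)).relIndex
      (fixedUnits (Dx q L H x ⧸ MxJ q L H N x) (Kw q L H N x)) =
      Nat.card (Dx q L H x ⧸ MxJ q L H N x) := by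
  have := isCyclic_quot q L H N x
  exact relIndex_normUnits_of_cyclic (isLocalGField_layer q L H N x)

/-- **`|H²(H/N, (Jq q L)^N)| = ∏_{x ∈ D\\G/H} |Gal(K'_w/K_v)|`** for every cyclic layer
(unconditional). -/
theorem card_H2_layer [IsCyclic (H ⧸ N)] {R : Finset (GalL L)}
    (hR : Mackey.IsRepr (jE q L) H R) :
    Nat.card (groupCohomology ((Rep.res H.subtype (Jq q L)).quotientToInvariants N) 2) =
      ∏ x : R, Nat.card (Dx q L H x ⧸ MxJ q L H N x) := by
  classical
  have : ∀ x : GalL L, Fintype (Dx q L H x ⧸ MxJ q L H N x) := fun x => Fintype.ofFinite _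
  exact card_H2_layer_cyclic_of_normIndex q L H N (fun x => relIndex_layer q L H N x) hR

end Fermat.Agent.S55.Idele73.LocalIndex
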