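/-
S55 / 15-IDELE (helper73): the Herbrand quotient (helper54's `Pair` vocabulary, in the literal
`Adapt77.HcycGlue.layerPair` shape) of every cyclic layer of the idele component `Jq q L`:
`q(H/N, (Jq)^N) = ∏_{x ∈ D\G/H} |Gal(K'_w/K_v)|`.
-/
import Mathlib
import Fermat.Agent.S55.Idele73.LocalIndex
import Fermat.Agent.S55.Adapt77.HcycGlue
import Fermat.Agent.S55.HerbrandRep54
import Fermat.Agent.S55.Idele73.DirectSumRep

set_option autoImplicit false
set_option linter.unusedSectionVars false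

namespace Fermat.Agent.S55.Idele73.PairJq

open CategoryTheory Basic Local Components LayerJq LocalG LocalIndex
open Fermat.Agent.S55.Herbrand54 Fermat.Agent.S55.HerbrandCyclic54 Fermat.Agent.S55.HerbrandHcyc54
open Fermat.Agent.S55.HerbrandRep54 Fermat.Agent.S55.Adapt77.HcycGlue

section Generic

variable {Q : Type} [Group Q] [Fintype Q] (B : Rep.{0, 0, 0} ℤ Q) (g : Q)
  (hg : ∀ y, y ∈ Subgroup.zpowers g)

include hg in
/-- from Mathlib cohomology to the Herbrand pair: `H¹ = 0`, `|H²| = n ≠ 0` give `q = n`. -/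
theorem pair_of_cohomology (h1 : Limits.IsZero (groupCohomology B 1)) {n : ℕ} (hn : n ≠ 0)
    (h2 : Nat.card (groupCohomology B 2) = n) :
    (cyclicPair (repRhoM B) g).IsDefined ∧ (cyclicPair (repRhoM B) g).q = n := by
  have hcyc : IsCyclic Q := ⟨g, hg⟩
  let _ : CommGroup Q := IsCyclic.commGroup
  have hsub : Subsingleton (groupCohomology B 1) := ModuleCat.subsingleton_of_isZero h1
  have hfin2 : Finite (groupCohomology B 2) :=
    Nat.finite_of_card_ne_zero (by rw [h2]; exact hn)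
  refine ⟨(isDefined_iff_finite_H1_H2 B g hg).2 ⟨hfin2, inferInstance⟩, ?_⟩
  have := q_eq_card_H2_of_subsingleton_H1 B g hg
  rw [h2] at this
  exact this

end Generic

variable (q : ℕ) [Fact q.Prime] (L : IntermediateField ℚ Qbar) [Normal ℚ L]
  [FiniteDimensional ℚ L]
variable (H : Subgroup (GalL L)) (N : Subgroup H) [N.Normal]

/-- **Herbrand quotient of the layer `(H/N, (Jq q L)^N)`** in the literal `layerPair` shape. -/
theorem layerPair_Jq [Fintype (H ⧸ N)] (g : H ⧸ N) (hg : ∀ y, y ∈ Subgroup.zpowers g)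
    {R : Finset (GalL L)} (hR : Mackey.IsRepr (jE q L) H R) :
    (layerPair (Jq q L) H N g).IsDefined ∧
      (layerPair (Jq q L) H N g).q =
        ((∏ x : R, Nat.card (Dx q L H x ⧸ MxJ q L H N x) : ℕ) : ℚ) := by
  have hcyc : IsCyclic (H ⧸ N) := ⟨g, hg⟩
  refine pair_of_cohomology (layer (Jq q L) H N) g hg (isZero_H1_layer q L H N) ?_
    (card_H2_layer q L H N hR)
  apply Finset.prod_ne_zero_iff.2
  intro x _
  exact Nat.card_pos.ne'

/-! ### The finite product `JS` (helper44's `IdeleVal44.JS`) -/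

attribute [local instance] Fermat.Agent.S55.IdeleVal44.factPrimes44

open Fermat.Agent.S55.IdeleVal44 in
/-- `H¹(H/N, (JS)^N) = 0`. -/
theorem isZero_H1_layer_JS (S : Finset Nat.Primes) :
    Limits.IsZero (groupCohomology (layer (JS L S) H N) 1) :=
  DirectSumRep.isZero_layerCoh (fun q : InS S => Jq q.1.1 L) H N 1
    (fun q => isZero_H1_layer q.1.1 L H N)

open Fermat.Agent.S55.IdeleVal44 in
/-- `|H²(H/N, (JS)^N)| = ∏_{q ∈ S} ∏_{x} |Gal(K'_w/K_v)|` for a cyclic layer. -/
theorem card_H2_layer_JS (S : Finset Nat.Primes) [IsCyclic (H ⧸ N)]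
    (R : InS S → Finset (GalL L)) (hR : ∀ q : InS S, Mackey.IsRepr (jE q.1.1 L) H (R q)) :
    Nat.card (groupCohomology (layer (JS L S) H N) 2) =
      ∏ q : InS S, ∏ x : R q, Nat.card (Dx q.1.1 L H x ⧸ MxJ q.1.1 L H N x) := by
  rw [DirectSumRep.card_layerCoh (fun q : InS S => Jq q.1.1 L) H N 2]
  exact Finset.prod_congr rfl (fun q _ => card_H2_layer q.1.1 L H N (hR q))

open Fermat.Agent.S55.IdeleVal44 in
/-- **Herbrand quotient of the layer `(H/N, (JS)^N)`** in the literal `layerPair` shape. -/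
theorem layerPair_JS (S : Finset Nat.Primes) [Fintype (H ⧸ N)] (g : H ⧸ N)
    (hg : ∀ y, y ∈ Subgroup.zpowers g)
    (R : InS S → Finset (GalL L)) (hR : ∀ q : InS S, Mackey.IsRepr (jE q.1.1 L) H (R q)) :
    (layerPair (JS L S) H N g).IsDefined ∧
      (layerPair (JS L S) H N g).q =
        ((∏ q : InS S, ∏ x : R q, Nat.card (Dx q.1.1 L H x ⧸ MxJ q.1.1 L H N x) : ℕ) : ℚ) := by
  have hcyc : IsCyclic (H ⧸ N) := ⟨g, hg⟩
  refine pair_of_cohomology (layer (JS L S) H N) g hg (isZero_H1_layer_JS L H N S) ?_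
    (card_H2_layer_JS L H N S R hR)
  apply Finset.prod_ne_zero_iff.2
  intro q _
  apply Finset.prod_ne_zero_iff.2
  intro x _
  exact Nat.card_pos.ne'

end Fermat.Agent.S55.Idele73.PairJq
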