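/-
S55 / 15-IDELE (helper73): the divisor modules `Zq L q = ∏_{w ∣ q} ℤ` (helper44's `IdeleVal44.Zq`)
at finite level, `Zq L q ≅ Coind_{Gal(E/ℚ_q)}^{Gal(L/ℚ)} ℤ`, and the Herbrand quotient of every cyclic
layer: `q(H/N, (Zq)^N) = ∏_{x ∈ D\G/H} |Gal(K'_w/K_v)|` — the same index set and the same number as
for the idele component `Jq q L` (`PairJq.layerPair_Jq`).
-/
import Mathlib
import Fermat.Agent.S55.Idele73.PairJq
import Fermat.Agent.S55.IdeleVal44.Ideal

set_option autoImplicit false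
set_option linter.unusedSectionVars false

namespace Fermat.Agent.S55.Idele73.ZLayer

open CategoryTheory Basic Local Components LayerJq LocalG
open Fermat.Agent.S55.Herbrand54 Fermat.Agent.S55.HerbrandCyclic54 Fermat.Agent.S55.HerbrandHcyc54
open Fermat.Agent.S55.HerbrandRep54 Fermat.Agent.S55.Adapt77.HcycGlue
open Fermat.Agent.S55.IdeleVal44

section Generic

variable {D : Type} [Group D] (B : Rep.{0, 0, 0} ℤ D) (hB : ∀ (d : D) (b : B.V), B.ρ d b = b)
  (e : B.V ≃+ ℤ) (M : Subgroup D) [M.Normal]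

include hB in
/-- the action on the invariants of a trivial module is trivial. -/
lemma rho_quotInv_of_trivial (t : D ⧸ M) (y : (B.quotientToInvariants M).V) :
    (B.quotientToInvariants M).ρ t y = y := by
  induction t using QuotientGroup.induction_on with
  | H d =>
    apply Subtype.ext
    exact hB d y.1

include hB in
/-- the invariants of a trivial module `≃ ℤ` are `≃ ℤ`. -/
noncomputable def quotInvAddEquiv : (B.quotientToInvariants M).V ≃+ ℤ where
  toFun y := e y.1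
  invFun n := ⟨e.symm n, fun m => hB _ _⟩
  left_inv y := by
    apply Subtype.ext
    exact e.symm_apply_apply y.1
  right_inv n := e.apply_symm_apply n
  map_add' y y' := by
    change e (y.1 + y'.1) = _
    rw [map_add]

variable [Fintype (D ⧸ M)] (g : D ⧸ M) (hg : ∀ y, y ∈ Subgroup.zpowers g)

include hB e hg in
/-- **`H¹(D/M, ℤ) = 0`** for a finite cyclic quotient. -/
theorem isZero_H1_quotInv_of_trivial :
    Limits.IsZero (groupCohomology (B.quotientToInvariants M) 1) := by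
  have hcyc : IsCyclic (D ⧸ M) := ⟨g, hg⟩
  let _ : CommGroup (D ⧸ M) := IsCyclic.commGroup
  have h1 : Subsingleton (cyclicPair (repRho (B.quotientToInvariants M)) g).H1 :=
    subsingleton_H1_of_trivial_int (repRho (B.quotientToInvariants M)) g
      (fun t y => rho_quotInv_of_trivial B hB M t y) (quotInvAddEquiv B hB e M)
  have : Subsingleton (groupCohomology (B.quotientToInvariants M) 1) :=
    (H1equivOdd (B.quotientToInvariants M) g hg 1 (by decide)).symm.toEquiv.subsingleton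
  exact ModuleCat.isZero_of_subsingleton _

include hB e hg in
/-- **`|H²(D/M, ℤ)| = |D/M|`** for a finite cyclic quotient. -/
theorem card_H2_quotInv_of_trivial :
    Nat.card (groupCohomology (B.quotientToInvariants M) 2) = Nat.card (D ⧸ M) := by
  have hcyc : IsCyclic (D ⧸ M) := ⟨g, hg⟩
  let _ : CommGroup (D ⧸ M) := IsCyclic.commGroup
  rw [card_H2 (B.quotientToInvariants M) g hg,
    card_H0_of_trivial_int (repRho (B.quotientToInvariants M)) g
      (fun t y => rho_quotInv_of_trivial B hB M t y) (quotInvAddEquiv B hB e M),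
    Nat.card_eq_fintype_card]

end Generic

variable (q : ℕ) [Fact q.Prime] (L : IntermediateField ℚ Qbar) [Normal ℚ L]

/-- `ℤ` with the trivial action of `Gal(E/ℚ_q)`. -/
noncomputable abbrev ZE : Rep.{0} ℤ (DE q L) := Rep.trivial ℤ (DE q L) ℤ

/-- **the divisors above `q` at finite level:** `Zq L q ≅ Coind_{Gal(E/ℚ_q)}^{Gal(L/ℚ)} ℤ`. -/
noncomputable def ZqIso : Rep.coind (jE q L) (ZE q L) ≅ Zq L q :=
  CoindSurj.coindCompIso (resE q L) (jE q L) (Rep.trivial ℤ (Gq q) ℤ) (ZE q L) LinearMap.id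
      (fun _ _ => rfl) (resE_surjective q L) Function.injective_id (fun a _ => ⟨a, rfl⟩) ≪≫
    eqToIso (congrArg (fun φ => Rep.coind φ (Rep.trivial ℤ (Gq q) ℤ)) (jE_comp_resE q L))

variable (H : Subgroup (GalL L)) (N : Subgroup H) [N.Normal] (x : GalL L)

/-- `Res_H (Zq L q) ≅ Res_H (Coind_{jE} ℤ)`. -/
noncomputable def resZqIso :
    Mackey.resCoind (jE q L) (ZE q L) H ≅ Rep.res H.subtype (Zq L q) :=
  (Rep.resFunctor H.subtype).mapIso (ZqIso q L)

/-- `(Res_H Zq)^N ≅ (Res_H Coind_{jE} ℤ)^N`. -/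
noncomputable def invZqIso :
    (Mackey.resCoind (jE q L) (ZE q L) H).quotientToInvariants N ≅
      (Rep.res H.subtype (Zq L q)).quotientToInvariants N :=
  (Rep.quotientToInvariantsFunctor.{0} ℤ N).mapIso (resZqIso q L H)

/-- the local layer `(Gal(K'_w/K_v), ℤ)`. -/
noncomputable abbrev zLayer : Rep.{0} ℤ (Dx q L H x ⧸ MxJ q L H N x) :=
  Layer.Bx (jE q L) (ZE q L) H N x

variable [FiniteDimensional ℚ L]

open Limits in
/-- **`Hⁿ(H/N, (Zq)^N) ≅ ⨁_{x ∈ D\\G/H} Hⁿ(D_x/M_x, ℤ)`.** -/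
noncomputable def HnLayerZqIso (n : ℕ) {R : Finset (GalL L)} (hR : Mackey.IsRepr (jE q L) H R) :
    groupCohomology ((Rep.res H.subtype (Zq L q)).quotientToInvariants N) n ≅
      ⨁ (fun x : R => groupCohomology (zLayer q L H N (x : GalL L)) n) :=
  (groupCohomology.functor ℤ (H ⧸ N) n).mapIso (invZqIso q L H N).symm ≪≫
    Layer.layerIso (jE q L) (ZE q L) H N n hR

/-- cardinality form. -/
theorem card_Hn_layer_Zq (n : ℕ) {R : Finset (GalL L)} (hR : Mackey.IsRepr (jE q L) H R) :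
    Nat.card (groupCohomology ((Rep.res H.subtype (Zq L q)).quotientToInvariants N) n) =
      ∏ x : R, Nat.card (groupCohomology (zLayer q L H N (x : GalL L)) n) := by
  rw [← Nat.card_pi]
  exact Nat.card_congr
    ((HnLayerZqIso q L H N n hR ≪≫ ModuleCat.biproductIsoPi _).toLinearEquiv.toEquiv)

/-- `H¹(Gal(K'_w/K_v), ℤ) = 0` for a cyclic layer. -/
theorem isZero_H1_zLayer [IsCyclic (H ⧸ N)] :
    Limits.IsZero (groupCohomology (zLayer q L H N x) 1) := by
  classical
  have : Fintype (Dx q L H x ⧸ MxJ q L H N x) := Fintype.ofFinite _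
  obtain ⟨g, hg⟩ := (isCyclic_quot q L H N x).exists_generator
  exact isZero_H1_quotInv_of_trivial (Rep.res (Dx q L H x).subtype (ZE q L)) (fun _ _ => rfl)
    (AddEquiv.refl ℤ) (MxJ q L H N x) g hg

/-- `|H²(Gal(K'_w/K_v), ℤ)| = |Gal(K'_w/K_v)|` for a cyclic layer. -/
theorem card_H2_zLayer [IsCyclic (H ⧸ N)] :
    Nat.card (groupCohomology (zLayer q L H N x) 2) =
      Nat.card (Dx q L H x ⧸ MxJ q L H N x) := by
  classical
  have : Fintype (Dx q L H x ⧸ MxJ q L H N x) := Fintype.ofFinite _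
  obtain ⟨g, hg⟩ := (isCyclic_quot q L H N x).exists_generator
  exact card_H2_quotInv_of_trivial (Rep.res (Dx q L H x).subtype (ZE q L)) (fun _ _ => rfl)
    (AddEquiv.refl ℤ) (MxJ q L H N x) g hg

/-- **`H¹(H/N, (Zq)^N) = 0`** for a cyclic layer. -/
theorem isZero_H1_layer_Zq [IsCyclic (H ⧸ N)] :
    Limits.IsZero (groupCohomology ((Rep.res H.subtype (Zq L q)).quotientToInvariants N) 1) := by
  obtain ⟨R, hR⟩ := Mackey.exists_isRepr (jE q L) H
  refine Limits.IsZero.of_iso ?_ (HnLayerZqIso q L H N 1 hR)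
  rw [Limits.IsZero.iff_id_eq_zero]
  apply Limits.biproduct.hom_ext
  intro y
  exact (isZero_H1_zLayer q L H N y).eq_of_tgt _ _

/-- **`|H²(H/N, (Zq)^N)| = ∏_{x ∈ D\\G/H} |Gal(K'_w/K_v)|`** for a cyclic layer. -/
theorem card_H2_layer_Zq [IsCyclic (H ⧸ N)] {R : Finset (GalL L)}
    (hR : Mackey.IsRepr (jE q L) H R) :
    Nat.card (groupCohomology ((Rep.res H.subtype (Zq L q)).quotientToInvariants N) 2) =
      ∏ x : R, Nat.card (Dx q L H x ⧸ MxJ q L H N x) := by
  rw [card_Hn_layer_Zq q L H N 2 hR]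
  exact Finset.prod_congr rfl (fun x _ => card_H2_zLayer q L H N x)

/-- **Herbrand quotient of the layer `(H/N, (Zq L q)^N)`** in the literal `layerPair` shape: the
same index set `R` and the same number as `PairJq.layerPair_Jq`. -/
theorem layerPair_Zq [Fintype (H ⧸ N)] (g : H ⧸ N) (hg : ∀ y, y ∈ Subgroup.zpowers g)
    {R : Finset (GalL L)} (hR : Mackey.IsRepr (jE q L) H R) :
    (layerPair (Zq L q) H N g).IsDefined ∧
      (layerPair (Zq L q) H N g).q =
        ((∏ x : R, Nat.card (Dx q L H x ⧸ MxJ q L H N x) : ℕ) : ℚ) := by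
  have hcyc : IsCyclic (H ⧸ N) := ⟨g, hg⟩
  refine PairJq.pair_of_cohomology (layer (Zq L q) H N) g hg (isZero_H1_layer_Zq q L H N) ?_
    (card_H2_layer_Zq q L H N hR)
  apply Finset.prod_ne_zero_iff.2
  intro x _
  exact Nat.card_pos.ne'

/-- `q(H/N, (Jq)^N) = q(H/N, (Zq)^N)` for every cyclic layer. -/
theorem layerPair_Jq_q_eq_Zq [Fintype (H ⧸ N)] (g : H ⧸ N) (hg : ∀ y, y ∈ Subgroup.zpowers g) :
    (layerPair (Jq q L) H N g).q = (layerPair (Zq L q) H N g).q := by
  obtain ⟨R, hR⟩ := Mackey.exists_isRepr (jE q L) H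
  rw [(PairJq.layerPair_Jq q L H N g hg hR).2, (layerPair_Zq q L H N g hg hR).2]

/-! ### Finite direct sums of divisor modules (e.g. `IT = ⨁_{ℓ ∈ T ∖ S} Zq L ℓ`) -/

section Family

variable {ι : Type} [Fintype ι] [DecidableEq ι] (p : ι → ℕ) [∀ i, Fact (p i).Prime]

/-- `H¹(H/N, (⨁_i Zq L (p i))^N) = 0` for a cyclic layer. -/
theorem isZero_H1_layer_dsZq [IsCyclic (H ⧸ N)] :
    Limits.IsZero (groupCohomology (layer (dsRep (fun i => Zq L (p i))) H N) 1) :=
  DirectSumRep.isZero_layerCoh (fun i => Zq L (p i)) H N 1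
    (fun i => isZero_H1_layer_Zq (p i) L H N)

/-- `|H²(H/N, (⨁_i Zq L (p i))^N)| = ∏_i ∏_x |Gal(K'_w/K_v)|` for a cyclic layer. -/
theorem card_H2_layer_dsZq [IsCyclic (H ⧸ N)]
    (R : ι → Finset (GalL L)) (hR : ∀ i, Mackey.IsRepr (jE (p i) L) H (R i)) :
    Nat.card (groupCohomology (layer (dsRep (fun i => Zq L (p i))) H N) 2) =
      ∏ i, ∏ x : R i, Nat.card (Dx (p i) L H x ⧸ MxJ (p i) L H N x) := by
  rw [DirectSumRep.card_layerCoh (fun i => Zq L (p i)) H N 2]
  exact Finset.prod_congr rfl (fun i _ => card_H2_layer_Zq (p i) L H N (hR i))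

/-- **Herbrand quotient of the layer `(H/N, (⨁_i Zq L (p i))^N)`** in the `layerPair` shape. -/
theorem layerPair_dsZq [Fintype (H ⧸ N)] (g : H ⧸ N) (hg : ∀ y, y ∈ Subgroup.zpowers g)
    (R : ι → Finset (GalL L)) (hR : ∀ i, Mackey.IsRepr (jE (p i) L) H (R i)) :
    (layerPair (dsRep (fun i => Zq L (p i))) H N g).IsDefined ∧
      (layerPair (dsRep (fun i => Zq L (p i))) H N g).q =
        ((∏ i, ∏ x : R i, Nat.card (Dx (p i) L H x ⧸ MxJ (p i) L H N x) : ℕ) : ℚ) := by
  have hcyc : IsCyclic (H ⧸ N) := ⟨g, hg⟩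
  refine PairJq.pair_of_cohomology (layer (dsRep (fun i => Zq L (p i))) H N) g hg
    (isZero_H1_layer_dsZq L H N p) ?_ (card_H2_layer_dsZq L H N p R hR)
  apply Finset.prod_ne_zero_iff.2
  intro i _
  apply Finset.prod_ne_zero_iff.2
  intro x _
  exact Nat.card_pos.ne'

end Family

end Fermat.Agent.S55.Idele73.ZLayer
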