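/-
S55 / 15-IDELE (helper73): layers of a binary product `prodRep A B` (helper44's `IdeleVal44.prodRep`):
`Hⁿ(H/N, (A × B)^N) ≅ Hⁿ(H/N, A^N) ⊞ Hⁿ(H/N, B^N)`, and the Herbrand quotient of the layers of
`JS L S × ⨁_i Zq L (p i)` (the module `A` of the first inequality) in the literal `layerPair` shape.
-/
import Mathlib
import Fermat.Agent.S55.Idele73.ZLayer
import Fermat.Agent.S55.IdeleVal44.Class

set_option autoImplicit false
set_option linter.unusedSectionVars false

namespace Fermat.Agent.S55.Idele73.PairProd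

open CategoryTheory Basic Local Components LayerJq LocalG
open Fermat.Agent.S55.Herbrand54 Fermat.Agent.S55.HerbrandCyclic54 Fermat.Agent.S55.HerbrandHcyc54
open Fermat.Agent.S55.HerbrandRep54 Fermat.Agent.S55.Adapt77.HcycGlue
open Fermat.Agent.S55.IdeleVal44

section Generic

variable {k : Type} [CommRing k] {G : Type} [Group G] (A B : Rep.{0, 0, 0} k G)

/-- the binary bicone of `prodRep A B`. -/
noncomputable def prodBicone : Limits.BinaryBicone A B where
  pt := prodRep A B
  fst := prodRep.fst A B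
  snd := prodRep.snd A B
  inl := prodRep.inl A B
  inr := prodRep.inr A B
  inl_fst := by
    apply Rep.hom_ext; apply Representation.IntertwiningMap.ext; apply LinearMap.ext
    intro a; rfl
  inl_snd := by
    apply Rep.hom_ext; apply Representation.IntertwiningMap.ext; apply LinearMap.ext
    intro a; rfl
  inr_fst := by
    apply Rep.hom_ext; apply Representation.IntertwiningMap.ext; apply LinearMap.ext
    intro a; rfl
  inr_snd := by
    apply Rep.hom_ext; apply Representation.IntertwiningMap.ext; apply LinearMap.ext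
    intro a; rfl

/-- `prodRep A B ≅ A ⊞ B`. -/
noncomputable def prodRepIso : prodRep A B ≅ A ⊞ B :=
  Limits.biprod.uniqueUpToIso A B (Limits.isBinaryBilimitOfTotal (prodBicone A B) (by
    apply Rep.hom_ext; apply Representation.IntertwiningMap.ext; apply LinearMap.ext
    intro x
    change prodRep.mk A B (prodRep.p1 A B x) 0 + prodRep.mk A B 0 (prodRep.p2 A B x) = x
    apply prodRep.ext
    · change prodRep.p1 A B x + 0 = _
      rw [add_zero]
    · change 0 + prodRep.p2 A B x = _
      rw [zero_add]))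

end Generic

section Layer

variable {G : Type} [Group G] (A B : Rep.{0, 0, 0} ℤ G) (H : Subgroup G) (N : Subgroup H)
  [N.Normal]

instance preservesBinaryBiproduct_layerCoh (n : ℕ) :
    Limits.PreservesBinaryBiproduct A B (DirectSumRep.layerCoh H N n) :=
  Limits.preservesBinaryBiproduct_of_preservesBiproduct _ A B

open Limits in
/-- `Hⁿ(H/N, (A × B)^N) ≅ Hⁿ(H/N, A^N) ⊞ Hⁿ(H/N, B^N)`. -/
noncomputable def layerCohProdIso (n : ℕ) :
    groupCohomology (layer (prodRep A B) H N) n ≅
      groupCohomology (layer A H N) n ⊞ groupCohomology (layer B H N) n :=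
  (DirectSumRep.layerCoh H N n).mapIso (prodRepIso A B) ≪≫
    (DirectSumRep.layerCoh H N n).mapBiprod A B

theorem card_layerCoh_prod (n : ℕ) :
    Nat.card (groupCohomology (layer (prodRep A B) H N) n) =
      Nat.card (groupCohomology (layer A H N) n) * Nat.card (groupCohomology (layer B H N) n) := by
  rw [← Nat.card_prod]
  exact Nat.card_congr
    ((layerCohProdIso A B H N n ≪≫ ModuleCat.biprodIsoProd _ _).toLinearEquiv.toEquiv)

theorem isZero_layerCoh_prod (n : ℕ) (hA : Limits.IsZero (groupCohomology (layer A H N) n))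
    (hB : Limits.IsZero (groupCohomology (layer B H N) n)) :
    Limits.IsZero (groupCohomology (layer (prodRep A B) H N) n) := by
  refine Limits.IsZero.of_iso ?_ (layerCohProdIso A B H N n)
  rw [Limits.IsZero.iff_id_eq_zero]
  apply Limits.biprod.hom_ext
  · exact hA.eq_of_tgt _ _
  · exact hB.eq_of_tgt _ _

/-- **the Herbrand quotient of the layers of a product** from the cohomology of the factors. -/
theorem layerPair_prod [Fintype (H ⧸ N)] (g : H ⧸ N) (hg : ∀ y, y ∈ Subgroup.zpowers g)
    (hA1 : Limits.IsZero (groupCohomology (layer A H N) 1))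
    (hB1 : Limits.IsZero (groupCohomology (layer B H N) 1))
    {a b : ℕ} (ha : a ≠ 0) (hb : b ≠ 0)
    (hA2 : Nat.card (groupCohomology (layer A H N) 2) = a)
    (hB2 : Nat.card (groupCohomology (layer B H N) 2) = b) :
    (layerPair (prodRep A B) H N g).IsDefined ∧
      (layerPair (prodRep A B) H N g).q = ((a * b : ℕ) : ℚ) := by
  refine PairJq.pair_of_cohomology (layer (prodRep A B) H N) g hg
    (isZero_layerCoh_prod A B H N 1 hA1 hB1) (Nat.mul_ne_zero ha hb) ?_
  rw [card_layerCoh_prod, hA2, hB2]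

end Layer

/-! ### The module `JS L S × ⨁_i Zq L (p i)` -/

attribute [local instance] Fermat.Agent.S55.IdeleVal44.factPrimes44

variable (L : IntermediateField ℚ Qbar) [Normal ℚ L] [FiniteDimensional ℚ L]
variable (H : Subgroup (GalL L)) (N : Subgroup H) [N.Normal]
variable {ι : Type} [Fintype ι] [DecidableEq ι] (p : ι → ℕ) [∀ i, Fact (p i).Prime]

/-- **Herbrand quotient of the layer `(H/N, (JS × ⨁_i Zq L (p i))^N)`**:
`q = ∏_{q ∈ S} ∏_x |Gal(K'_w/K_v)| · ∏_i ∏_x |Gal(K'_w/K_v)|`. -/
theorem layerPair_JS_dsZq (S : Finset Nat.Primes) [Fintype (H ⧸ N)] (g : H ⧸ N)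
    (hg : ∀ y, y ∈ Subgroup.zpowers g)
    (R : InS S → Finset (GalL L)) (hR : ∀ q : InS S, Mackey.IsRepr (jE q.1.1 L) H (R q))
    (R' : ι → Finset (GalL L)) (hR' : ∀ i, Mackey.IsRepr (jE (p i) L) H (R' i)) :
    (layerPair (prodRep (JS L S) (dsRep (fun i => Zq L (p i)))) H N g).IsDefined ∧
      (layerPair (prodRep (JS L S) (dsRep (fun i => Zq L (p i)))) H N g).q =
        (((∏ q : InS S, ∏ x : R q, Nat.card (Dx q.1.1 L H x ⧸ MxJ q.1.1 L H N x)) *
          (∏ i, ∏ x : R' i, Nat.card (Dx (p i) L H x ⧸ MxJ (p i) L H N x)) : ℕ) : ℚ) := by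
  have hcyc : IsCyclic (H ⧸ N) := ⟨g, hg⟩
  refine layerPair_prod (JS L S) (dsRep (fun i => Zq L (p i))) H N g hg
    (PairJq.isZero_H1_layer_JS L H N S) (ZLayer.isZero_H1_layer_dsZq L H N p) ?_ ?_
    (PairJq.card_H2_layer_JS L H N S R hR) (ZLayer.card_H2_layer_dsZq L H N p R' hR')
  · apply Finset.prod_ne_zero_iff.2
    intro q _
    apply Finset.prod_ne_zero_iff.2
    intro x _
    exact Nat.card_pos.ne'
  · apply Finset.prod_ne_zero_iff.2
    intro i _
    apply Finset.prod_ne_zero_iff.2
    intro x _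
    exact Nat.card_pos.ne'

end Fermat.Agent.S55.Idele73.PairProd
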