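/-
S55 / 15-IDELE (helper73): `H¹` of the layers of ARBITRARY (infinite) direct sums `dsRep A`, in
particular of the ideal module `IS L S = ⨁_{ℓ ∉ S} Zq L ℓ` and of `J_S × I^S`:
`H¹(H/N, (IS L S)^N) = 0`, `H¹(H/N, (J_S × I^S)^N) = 0` for EVERY layer `N ⊴ H ≤ Gal(L/ℚ)`
(no cyclicity), with elementwise forms.
-/
import Mathlib
import Fermat.Agent.S55.Idele73.PairProd

set_option autoImplicit false
set_option linter.unusedSectionVars false

namespace Fermat.Agent.S55.Idele73.InfSum

open CategoryTheory Basic Local Components LayerJq LocalG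
open Fermat.Agent.S55.Adapt77.HcycGlue Fermat.Agent.S55.IdeleVal44
open groupCohomology

/-! ### `H¹ = 0` elementwise -/

section Elementwise

variable {k Q : Type} [CommRing k] [Group Q] (B : Rep.{0, 0, 0} k Q)

/-- every 1-cocycle is a coboundary. -/
def H1Vanishes : Prop :=
  ∀ z : Q → B.V, (∀ s t : Q, z (s * t) = B.ρ s (z t) + z s) → ∃ y : B.V, ∀ s : Q, B.ρ s y - y = z s

theorem h1Vanishes_of_isZero (h : Limits.IsZero (groupCohomology B 1)) : H1Vanishes B := by
  intro z hz
  have hmem : z ∈ cocycles₁ B := (mem_cocycles₁_iff z).2 hz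
  have hss := ModuleCat.subsingleton_of_isZero h
  have h0 : H1π B ⟨z, hmem⟩ = 0 := Subsingleton.elim _ _
  rw [H1π_eq_zero_iff] at h0
  obtain ⟨y, hy⟩ := h0
  refine ⟨y, fun s => ?_⟩
  have := congrFun hy s
  simp only [d₀₁_hom_apply] at this
  exact this

theorem isZero_of_h1Vanishes (h : H1Vanishes B) : Limits.IsZero (groupCohomology B 1) := by
  have : Subsingleton (groupCohomology B 1) := by
    refine subsingleton_of_forall_eq 0 fun x => ?_
    induction x using H1_induction_on with
    | h z =>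
      rw [H1π_eq_zero_iff]
      obtain ⟨y, hy⟩ := h z.1 ((mem_cocycles₁_iff z.1).1 z.2)
      refine ⟨y, ?_⟩
      funext s
      simp only [d₀₁_hom_apply]
      exact hy s
  exact ModuleCat.isZero_of_subsingleton _

theorem isZero_H1_iff : Limits.IsZero (groupCohomology B 1) ↔ H1Vanishes B :=
  ⟨h1Vanishes_of_isZero B, isZero_of_h1Vanishes B⟩

end Elementwise

/-! ### layers of direct sums -/

section DirectSum

variable {G : Type} [Group G] {ι : Type} (A : ι → Rep.{0, 0, 0} ℤ G)
variable (H : Subgroup G) (N : Subgroup H) [N.Normal]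

/-- the `i`-th component of an `N`-invariant element of the direct sum. -/
def compInv (i : ι) (y : (layer (dsRep A) H N).V) : (layer (A i) H N).V :=
  ⟨dsRep.toDS A y.1 i, fun n => congrArg (fun w => dsRep.toDS A w i) (y.2 n)⟩

lemma compInv_val (i : ι) (y : (layer (dsRep A) H N).V) :
    (compInv A H N i y).1 = dsRep.toDS A y.1 i := rfl

lemma compInv_rho (i : ι) (t : H ⧸ N) (y : (layer (dsRep A) H N).V) :
    compInv A H N i ((layer (dsRep A) H N).ρ t y) = (layer (A i) H N).ρ t (compInv A H N i y) := by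
  induction t using QuotientGroup.induction_on with
  | H h => rfl

lemma compInv_add (i : ι) (y y' : (layer (dsRep A) H N).V) :
    compInv A H N i (y + y') = compInv A H N i y + compInv A H N i y' := rfl

lemma compInv_sub (i : ι) (y y' : (layer (dsRep A) H N).V) :
    compInv A H N i (y - y') = compInv A H N i y - compInv A H N i y' := by
  apply Subtype.ext
  change dsRep.toDS A (y.1 - y'.1) i = dsRep.toDS A y.1 i - dsRep.toDS A y'.1 i
  rfl

lemma ext_compInv {y y' : (layer (dsRep A) H N).V}
    (h : ∀ i, compInv A H N i y = compInv A H N i y') : y = y' := by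
  apply Subtype.ext
  apply dsRep.ext
  intro i
  exact congrArg Subtype.val (h i)

open Classical in
/-- the finitely supported family with components `y i`, `i ∈ s`. -/
noncomputable def famDS (s : Finset ι) (y : ∀ i, (layer (A i) H N).V) : Π₀ i, (A i).V :=
  DFinsupp.mk s (fun i : (s : Set ι) => ((y i.1).1 : (A i.1).V))

open Classical in
lemma famDS_apply (s : Finset ι) (y : ∀ i, (layer (A i) H N).V) (i : ι) :
    famDS A H N s y i = if i ∈ s then ((y i).1 : (A i).V) else 0 := by
  unfold famDS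
  rw [DFinsupp.mk_apply]
  split_ifs <;> rfl

/-- assemble a finitely supported family of invariant elements. -/
noncomputable def mkInv (s : Finset ι) (y : ∀ i, (layer (A i) H N).V) :
    (layer (dsRep A) H N).V :=
  ⟨dsRep.ofDS A (famDS A H N s y), fun n => by
    apply dsRep.ext
    intro i
    change (A i).ρ ((n : H) : G) (famDS A H N s y i) = famDS A H N s y i
    rw [famDS_apply]
    split_ifs with hi
    · exact (y i).2 n
    · exact map_zero _⟩

lemma compInv_mkInv (s : Finset ι) (y : ∀ i, (layer (A i) H N).V) (hy : ∀ i, i ∉ s → y i = 0)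
    (i : ι) : compInv A H N i (mkInv A H N s y) = y i := by
  apply Subtype.ext
  change famDS A H N s y i = (y i).1
  rw [famDS_apply]
  split_ifs with hi
  · rfl
  · rw [hy i hi]; rfl

variable [Finite (H ⧸ N)]

open Classical in
/-- **`H¹(H/N, (⨁_i A_i)^N) = 0` if all `H¹(H/N, (A_i)^N) = 0`** (arbitrary index set). -/
theorem h1Vanishes_layer_dsRep (hA : ∀ i, H1Vanishes (layer (A i) H N)) :
    H1Vanishes (layer (dsRep A) H N) := by
  intro z hz
  have : Fintype (H ⧸ N) := Fintype.ofFinite _
  -- the components of the cocycle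
  have hzi : ∀ i, ∀ s t : H ⧸ N, compInv A H N i (z (s * t)) =
      (layer (A i) H N).ρ s (compInv A H N i (z t)) + compInv A H N i (z s) := by
    intro i s t
    rw [hz s t, compInv_add, compInv_rho]
  let supp : Finset ι := Finset.univ.biUnion (fun t : H ⧸ N => (dsRep.toDS A (z t).1).support)
  have hsupp : ∀ i, i ∉ supp → ∀ t, compInv A H N i (z t) = 0 := by
    intro i hi t
    apply Subtype.ext
    change dsRep.toDS A (z t).1 i = 0
    by_contra h0
    apply hi
    rw [Finset.mem_biUnion]
    exact ⟨t, Finset.mem_univ _, DFinsupp.mem_support_iff.2 h0⟩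
  choose y0 hy0 using fun i => hA i (fun t => compInv A H N i (z t)) (hzi i)
  let y : ∀ i, (layer (A i) H N).V := fun i => if i ∈ supp then y0 i else 0
  have hy : ∀ i, i ∉ supp → y i = 0 := fun i hi => if_neg hi
  refine ⟨mkInv A H N supp y, fun s => ?_⟩
  apply ext_compInv
  intro i
  rw [compInv_sub, compInv_rho, compInv_mkInv A H N supp y hy]
  by_cases hi : i ∈ supp
  · have : y i = y0 i := if_pos hi
    rw [this]
    exact hy0 i s
  · rw [hy i hi, map_zero, sub_zero, hsupp i hi s]

/-- `IsZero` form. -/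
theorem isZero_H1_layer_dsRep
    (hA : ∀ i, Limits.IsZero (groupCohomology (layer (A i) H N) 1)) :
    Limits.IsZero (groupCohomology (layer (dsRep A) H N) 1) :=
  isZero_of_h1Vanishes _ (h1Vanishes_layer_dsRep A H N (fun i => h1Vanishes_of_isZero _ (hA i)))

end DirectSum

/-! ### `H¹(Q, ℤ) = 0` for every finite group `Q` -/

section Trivial

variable {D : Type} [Group D] (B : Rep.{0, 0, 0} ℤ D) (hB : ∀ (d : D) (b : B.V), B.ρ d b = b)
  (e : B.V ≃+ ℤ)

include hB e in
/-- `H¹(D, ℤ) = 0` for a finite group (trivial action). -/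
theorem h1Vanishes_of_trivial [Finite D] : H1Vanishes B := by
  intro z hz
  have hadd : ∀ s t : D, z (s * t) = z t + z s := by
    intro s t
    rw [hz s t, hB]
  have h1 : z 1 = 0 := by
    have := hadd 1 1
    rw [mul_one] at this
    have h2 : z 1 + 0 = z 1 + z 1 := by rw [add_zero]; exact this
    exact (add_left_cancel h2).symm
  have hpow : ∀ (s : D) (n : ℕ), z (s ^ n) = n • z s := by
    intro s n
    induction n with
    | zero => rw [pow_zero, zero_smul]; exact h1
    | succ n ih => rw [pow_succ, hadd, ih, succ_nsmul, add_comm]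
  have hz0 : ∀ s, z s = 0 := by
    intro s
    have h2 : (Nat.card D) • z s = 0 := by
      rw [← hpow, pow_card_eq_one', h1]
    apply e.injective
    have h3 : (Nat.card D : ℤ) * e (z s) = 0 := by
      rw [← nsmul_eq_mul, ← map_nsmul, h2, map_zero]
    rcases mul_eq_zero.1 h3 with h | h
    · exact absurd h (by exact_mod_cast Nat.card_pos.ne')
    · rw [h, map_zero]
  refine ⟨0, fun s => ?_⟩
  rw [map_zero, sub_zero, hz0 s]

variable (M : Subgroup D) [M.Normal] [Finite (D ⧸ M)]

include hB e in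
/-- `H¹(D/M, ℤ) = 0` for a finite quotient (no cyclicity). -/
theorem h1Vanishes_quotInv_of_trivial : H1Vanishes (B.quotientToInvariants M) :=
  h1Vanishes_of_trivial (B.quotientToInvariants M) (ZLayer.rho_quotInv_of_trivial B hB M)
    (ZLayer.quotInvAddEquiv B hB e M)

end Trivial

/-! ### direct sums restricted to a finite subgroup, and products -/

section ResSum

variable {G : Type} [Group G] {ι : Type} (A : ι → Rep.{0, 0, 0} ℤ G) (H : Subgroup G) [Finite H]

open Classical in
/-- **`H¹(H, ⨁_i A_i) = 0` if all `H¹(H, A_i) = 0`** (arbitrary index set, `H` finite). -/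
theorem h1Vanishes_res_dsRep (hA : ∀ i, H1Vanishes (Rep.res H.subtype (A i))) :
    H1Vanishes (Rep.res H.subtype (dsRep A)) := by
  intro z hz
  have : Fintype H := Fintype.ofFinite _
  let zi : ∀ i, H → (A i).V := fun i t => dsRep.toDS A (z t) i
  have hzi : ∀ i, ∀ s t : H, zi i (s * t) = (A i).ρ (s : G) (zi i t) + zi i s := by
    intro i s t
    change dsRep.toDS A (z (s * t)) i = _
    rw [hz s t]
    rfl
  let supp : Finset ι := Finset.univ.biUnion (fun t : H => (dsRep.toDS A (z t)).support)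
  have hsupp : ∀ i, i ∉ supp → ∀ t, zi i t = 0 := by
    intro i hi t
    by_contra h0
    apply hi
    rw [Finset.mem_biUnion]
    exact ⟨t, Finset.mem_univ _, DFinsupp.mem_support_iff.2 h0⟩
  choose y0 hy0 using fun i => hA i (zi i) (hzi i)
  let y1 : ∀ i, (A i).V := fun i => y0 i
  let Y : Π₀ i, (A i).V :=
    DFinsupp.mk (β := fun i => (A i).V) supp (fun i : (supp : Set ι) => y1 i.1)
  have hY : ∀ i, Y i = if i ∈ supp then y1 i else 0 := by
    intro i
    change DFinsupp.mk (β := fun i => (A i).V) supp (fun i : (supp : Set ι) => y1 i.1) i = _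
    rw [DFinsupp.mk_apply]
    split_ifs <;> rfl
  refine ⟨dsRep.ofDS A Y, fun s => ?_⟩
  apply dsRep.ext
  intro i
  change (A i).ρ (s : G) (Y i) - Y i = zi i s
  rw [hY i]
  split_ifs with hi
  · exact hy0 i s
  · rw [map_zero, sub_zero, hsupp i hi s]

/-- `IsZero` form. -/
theorem isZero_H1_res_dsRep
    (hA : ∀ i, Limits.IsZero (groupCohomology (Rep.res H.subtype (A i)) 1)) :
    Limits.IsZero (groupCohomology (Rep.res H.subtype (dsRep A)) 1) :=
  isZero_of_h1Vanishes _ (h1Vanishes_res_dsRep A H (fun i => h1Vanishes_of_isZero _ (hA i)))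

end ResSum

section ResProd

variable {G : Type} [Group G] (A B : Rep.{0, 0, 0} ℤ G) (H : Subgroup G)

/-- `H¹(H, A × B) = 0` if `H¹(H, A) = 0 = H¹(H, B)`, elementwise. -/
theorem h1Vanishes_res_prod (hA : H1Vanishes (Rep.res H.subtype A))
    (hB : H1Vanishes (Rep.res H.subtype B)) : H1Vanishes (Rep.res H.subtype (prodRep A B)) := by
  intro z hz
  obtain ⟨a, ha⟩ := hA (fun t => prodRep.p1 A B (z t)) (fun s t => by
    change prodRep.p1 A B (z (s * t)) = _
    rw [hz s t]
    rfl)
  obtain ⟨b, hb⟩ := hB (fun t => prodRep.p2 A B (z t)) (fun s t => by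
    change prodRep.p2 A B (z (s * t)) = _
    rw [hz s t]
    rfl)
  refine ⟨prodRep.mk A B a b, fun s => ?_⟩
  apply prodRep.ext
  · exact ha s
  · exact hb s

/-- `IsZero` form. -/
theorem isZero_H1_res_prod (hA : Limits.IsZero (groupCohomology (Rep.res H.subtype A) 1))
    (hB : Limits.IsZero (groupCohomology (Rep.res H.subtype B) 1)) :
    Limits.IsZero (groupCohomology (Rep.res H.subtype (prodRep A B)) 1) :=
  isZero_of_h1Vanishes _ (h1Vanishes_res_prod A B H (h1Vanishes_of_isZero _ hA)
    (h1Vanishes_of_isZero _ hB))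

end ResProd

/-! ### the divisor modules and the ideal module -/

variable (q : ℕ) [Fact q.Prime] (L : IntermediateField ℚ Qbar) [Normal ℚ L]
  [FiniteDimensional ℚ L]
variable (H : Subgroup (GalL L)) (N : Subgroup H) [N.Normal] (x : GalL L)

/-- `H¹(Gal(K'_w/K_v), ℤ) = 0` for every layer. -/
theorem isZero_H1_zLayer_any :
    Limits.IsZero (groupCohomology (ZLayer.zLayer q L H N x) 1) :=
  isZero_of_h1Vanishes _
    (h1Vanishes_quotInv_of_trivial (Rep.res (Dx q L H x).subtype (ZLayer.ZE q L)) (fun _ _ => rfl)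
      (AddEquiv.refl ℤ) (MxJ q L H N x))

/-- **`H¹(H/N, (Zq L q)^N) = 0`** for EVERY layer `N ⊴ H ≤ Gal(L/ℚ)`. -/
theorem isZero_H1_layer_Zq_any :
    Limits.IsZero (groupCohomology (layer (Zq L q) H N) 1) := by
  obtain ⟨R, hR⟩ := Mackey.exists_isRepr (jE q L) H
  refine Limits.IsZero.of_iso ?_ (ZLayer.HnLayerZqIso q L H N 1 hR)
  rw [Limits.IsZero.iff_id_eq_zero]
  apply Limits.biproduct.hom_ext
  intro y
  exact (isZero_H1_zLayer_any q L H N y).eq_of_tgt _ _

attribute [local instance] Fermat.Agent.S55.IdeleVal44.factPrimes44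

/-- **`H¹(H/N, (IS L S)^N) = 0`** for every layer (`IS L S = ⨁_{ℓ ∉ S} Zq L ℓ`, infinite sum). -/
theorem isZero_H1_layer_IS (S : Finset Nat.Primes) :
    Limits.IsZero (groupCohomology (layer (IS L S) H N) 1) :=
  isZero_H1_layer_dsRep (fun ℓ : OutS S => Zq L ℓ.1.1) H N
    (fun ℓ => isZero_H1_layer_Zq_any ℓ.1.1 L H N)

/-- **`H¹(H/N, (J_S × I^S)^N) = 0`** for every layer. -/
theorem isZero_H1_layer_JIS (S : Finset Nat.Primes) :
    Limits.IsZero (groupCohomology (layer (JIS L S) H N) 1) :=
  PairProd.isZero_layerCoh_prod (JS L S) (IS L S) H N 1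
    (PairJq.isZero_H1_layer_JS L H N S) (isZero_H1_layer_IS L H N S)

/-- elementwise form for `J_S × I^S`. -/
theorem h1Vanishes_layer_JIS (S : Finset Nat.Primes) : H1Vanishes (layer (JIS L S) H N) :=
  h1Vanishes_of_isZero _ (isZero_H1_layer_JIS L H N S)

/-! ### subgroup forms -/

omit [N.Normal] in
/-- **`H¹(H, Zq L q) = 0`** for every subgroup `H ≤ Gal(L/ℚ)`. -/
theorem isZero_H1_res_Zq (q : ℕ) [Fact q.Prime] :
    Limits.IsZero (groupCohomology (Rep.res H.subtype (Zq L q)) 1) := by
  obtain ⟨R, hR⟩ := Mackey.exists_isRepr (jE q L) H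
  refine Limits.IsZero.of_iso ?_
    ((groupCohomology.functor ℤ H 1).mapIso (ZLayer.resZqIso q L H).symm)
  exact ShapiroInj.isZero_resCoind (jE q L) (jE_injective q L) (ZLayer.ZE q L) H 1 hR
    (fun x _ => isZero_of_h1Vanishes _
      (h1Vanishes_of_trivial (Rep.res (Dx q L H x).subtype (ZLayer.ZE q L)) (fun _ _ => rfl)
        (AddEquiv.refl ℤ)))

omit [N.Normal] in
/-- **`H¹(H, IS L S) = 0`** for every subgroup. -/
theorem isZero_H1_res_IS (S : Finset Nat.Primes) :
    Limits.IsZero (groupCohomology (Rep.res H.subtype (IS L S)) 1) :=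
  isZero_H1_res_dsRep (fun ℓ : OutS S => Zq L ℓ.1.1) H (fun ℓ => isZero_H1_res_Zq L H ℓ.1.1)

omit [N.Normal] in
/-- **`H¹(H, JS L S) = 0`** for every subgroup. -/
theorem isZero_H1_res_JS (S : Finset Nat.Primes) :
    Limits.IsZero (groupCohomology (Rep.res H.subtype (JS L S)) 1) :=
  isZero_H1_res_dsRep (fun q : InS S => Jq q.1.1 L) H (fun q => isZero_H1_Jq q.1.1 L H)

omit [N.Normal] in
/-- **`H¹(H, J_S × I^S) = 0`** for every subgroup. -/
theorem isZero_H1_res_JIS (S : Finset Nat.Primes) :
    Limits.IsZero (groupCohomology (Rep.res H.subtype (JIS L S)) 1) :=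
  isZero_H1_res_prod (JS L S) (IS L S) H (isZero_H1_res_JS L H S) (isZero_H1_res_IS L H S)

omit [N.Normal] in
/-- elementwise form (the shape of `hH90`): every 1-cocycle `H → J_S × I^S` is a coboundary. -/
theorem hH90_JIS (S : Finset Nat.Primes) (z : H → (JIS L S).V)
    (hz : ∀ s t : H, z (s * t) = (JIS L S).ρ (s : GalL L) (z t) + z s) :
    ∃ y : (JIS L S).V, ∀ s : H, (JIS L S).ρ (s : GalL L) y - y = z s :=
  h1Vanishes_of_isZero _ (isZero_H1_res_JIS L H S) z hz

end Fermat.Agent.S55.Idele73.InfSum
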