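/-
S55 / 31-FIRST-INEQ, UNCONDITIONAL (helper73, on helper27 Main + helper16 (L2)(L4) + helper1 (L3)):
**the first inequality `FirstIneqOut (CS h) ⊤ p`** for helper44's `S`-idele class module
`C_S(L) = (J_S × I^S)/Lˣ` of every finite Galois level `L/ℚ`, every nonempty finite `S` outside of
which `L` is unramified, and every odd `p`: for every cyclic layer `N ⊴ H ≤ Gal(L/ℚ)` of order `p`
the Herbrand quotient of `(H/N, C_S(L)^N)` is defined and equal to `p`.
-/
import Mathlib
import Fermat.Agent.S55.Idele73.FirstOut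
import Fermat.Agent.S55.SUnit1.HEIsoBeta

set_option autoImplicit false
set_option linter.unusedSectionVars false

namespace Fermat.Agent.S55.Idele73.FirstOutFinal

open Basic Fermat.Agent.S55.IdeleVal44 Fermat.Agent.S55.Adapt77.HcycGlue
open Fermat.Agent.S55.FirstIneq27.Main

attribute [local instance] Fermat.Agent.S55.IdeleVal44.factPrimes44

variable {L : IntermediateField ℚ Qbar} [Normal ℚ L] [FiniteDimensional ℚ L]
variable {S : Finset Nat.Primes} (h : UnrOutside L S)

/-- the unit factor holds for every `T ⊇ S` (helper1 `hE_beta`). -/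
theorem unitFactor (T : Finset Nat.Primes) (hST : S ⊆ T) : FirstOut.UnitFactor T h :=
  fun H N _ _ g hodd hg R hR =>
    Fermat.Agent.S55.SUnit1.HEIsoBeta.hE_beta T h H N g hST hodd hg R hR

/-- **(31-OUT), unconditional**: `FirstIneqOut (CS h) ⊤ p` for odd `p`. -/
theorem firstIneqOut_CS (hS : S.Nonempty) (p : ℕ) (hp : Odd p) :
    FirstIneqOut (CS h) ⊤ p :=
  FirstOut.firstIneqOut_CS h hS (fun T hST => unitFactor h T hST) p hp

/-- the same for an odd prime. -/
theorem firstIneqOut_CS_prime (hS : S.Nonempty) (p : ℕ) [Fact p.Prime] (hp2 : p ≠ 2) :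
    FirstIneqOut (CS h) ⊤ p :=
  firstIneqOut_CS h hS p ((Fact.out : p.Prime).odd_of_ne_two hp2)

end Fermat.Agent.S55.Idele73.FirstOutFinal
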