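/-
S55 / 15-IDELE (helper73): ELEMENT-LEVEL formulas for the isomorphisms `Local.JqIso` and
`ZLayer.ZqIso` (which contain a transport `eqToIso` along `jE ∘ resE = locHom`): the transport is
eliminated once and for all by a generic `subst` lemma, so that consumers never have to unfold it
(any kernel-level unfolding of it makes the kernel evaluate `Eq.rec` on a non-`rfl` proof and time
out).  USE THESE LEMMAS BY `rw`/`exact` ONLY, never `show`/`change`/`rfl` through `JqIso`.
Also: `JqIso = JqIsoE` on elements (helper37's transport-free copy).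
-/
import Mathlib
import Fermat.Agent.S55.Idele73.ZLayer
import Fermat.Agent.S55.CycloRecip37.TotalSys

set_option autoImplicit false
set_option linter.unusedSectionVars false
set_option maxHeartbeats 40000

namespace Fermat.Agent.S55.Idele73.LocalApply

open CategoryTheory Basic Local

section Generic

variable {k : Type} [CommRing k] {Γ G : Type} [Group Γ] [Group G] (A : Rep.{0} k Γ)

/-- the transport of coinduced modules along an equality of homomorphisms does nothing on the
underlying functions. -/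
lemma eqToIso_coind_hom_apply {φ φ' : Γ →* G} (h : φ = φ') (F : (Rep.coind φ A).V) (g : G) :
    ((eqToIso (congrArg (fun ψ => Rep.coind ψ A) h)).hom.hom F).1 g = F.1 g := by
  subst h
  rfl

variable {X Y Z : Rep.{0} k G}

lemma trans_hom_apply (e₁ : X ≅ Y) (e₂ : Y ≅ Z) (x : X.V) :
    (e₁ ≪≫ e₂).hom.hom x = e₂.hom.hom (e₁.hom.hom x) := rfl

lemma iso_hom_inv_apply (e : X ≅ Y) (y : Y.V) : e.hom.hom (e.inv.hom y) = y := by
  have h : e.inv ≫ e.hom = 𝟙 _ := e.inv_hom_id
  exact congrArg (fun φ => φ.hom y) h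

lemma iso_inv_hom_apply (e : X ≅ Y) (x : X.V) : e.inv.hom (e.hom.hom x) = x := by
  have h : e.hom ≫ e.inv = 𝟙 _ := e.hom_inv_id
  exact congrArg (fun φ => φ.hom x) h

end Generic

variable (q : ℕ) [Fact q.Prime] (L : IntermediateField ℚ Qbar) [Normal ℚ L]

/-- the definition of `JqIso`, as an equation. -/
lemma JqIso_def : JqIso q L =
    CoindSurj.coindCompIso (resE q L) (jE q L) (localUnits q) (EUnits q L) (eLin q L)
      (eLin_equivariant q L) (resE_surjective q L) (eLin_injective q L) (eLin_range q L) ≪≫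
    eqToIso (congrArg (fun φ => Rep.coind φ (localUnits q)) (jE_comp_resE q L)) := by
  delta JqIso
  rfl

lemma JqIso_hom_eq (f : (Rep.coind (jE q L) (EUnits q L)).V) :
    (JqIso q L).hom.hom f =
      (eqToIso (congrArg (fun φ => Rep.coind φ (localUnits q)) (jE_comp_resE q L))).hom.hom
        ((CoindSurj.coindCompIso (resE q L) (jE q L) (localUnits q) (EUnits q L) (eLin q L)
          (eLin_equivariant q L) (resE_surjective q L) (eLin_injective q L)
          (eLin_range q L)).hom.hom f) := by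
  have h1 : (JqIso q L).hom.hom f =
      (CoindSurj.coindCompIso (resE q L) (jE q L) (localUnits q) (EUnits q L) (eLin q L)
        (eLin_equivariant q L) (resE_surjective q L) (eLin_injective q L) (eLin_range q L) ≪≫
      eqToIso (congrArg (fun φ => Rep.coind φ (localUnits q))
        (jE_comp_resE q L))).hom.hom f := by
    rw [JqIso_def]
  exact h1.trans (trans_hom_apply _ _ _)

/-- **`JqIso` on elements**: `(JqIso f)(g) = eLin (f g)`. -/
lemma JqIso_hom_apply (f : (Rep.coind (jE q L) (EUnits q L)).V) (g : GalL L) :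
    ((JqIso q L).hom.hom f).1 g = eLin q L (f.1 g) := by
  have h2 := eqToIso_coind_hom_apply (localUnits q) (jE_comp_resE q L)
    ((CoindSurj.coindCompIso (resE q L) (jE q L) (localUnits q) (EUnits q L) (eLin q L)
      (eLin_equivariant q L) (resE_surjective q L) (eLin_injective q L)
      (eLin_range q L)).hom.hom f) g
  have h3 := CoindSurj.coindCompIso_hom_apply (resE q L) (jE q L) (localUnits q) (EUnits q L)
    (eLin q L) (eLin_equivariant q L) (resE_surjective q L) (eLin_injective q L) (eLin_range q L)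
    f g
  rw [JqIso_hom_eq]
  exact h2.trans h3

/-- `JqIso` agrees with helper37's transport-free `JqIsoE` on elements. -/
lemma JqIso_hom_eq_JqIsoE (f : (Rep.coind (jE q L) (EUnits q L)).V) :
    (JqIso q L).hom.hom f =
      (Fermat.Agent.S55.CycloRecip37.TotalSys.JqIsoE q L).hom.hom f := by
  apply Subtype.ext
  funext g
  rw [JqIso_hom_apply, Fermat.Agent.S55.CycloRecip37.TotalSys.JqIsoE_hom_apply]

lemma JqIso_hom_inv (F : (Jq q L).V) : (JqIso q L).hom.hom ((JqIso q L).inv.hom F) = F :=
  iso_hom_inv_apply (JqIso q L) F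

lemma JqIso_inv_hom (f : (Rep.coind (jE q L) (EUnits q L)).V) :
    (JqIso q L).inv.hom ((JqIso q L).hom.hom f) = f :=
  iso_inv_hom_apply (JqIso q L) f

/-- **`JqIso⁻¹` on elements**: `eLin ((JqIso⁻¹ F)(g)) = F g`. -/
lemma JqIso_inv_apply (F : (Jq q L).V) (g : GalL L) :
    eLin q L (((JqIso q L).inv.hom F).1 g) = F.1 g := by
  rw [← JqIso_hom_apply, JqIso_hom_inv]

/-- `JqIso⁻¹` agrees with `JqIsoE⁻¹` on elements. -/
lemma JqIso_inv_eq_JqIsoE (F : (Jq q L).V) :
    (JqIso q L).inv.hom F =
      (Fermat.Agent.S55.CycloRecip37.TotalSys.JqIsoE q L).inv.hom F := by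
  have h1 := JqIso_hom_eq_JqIsoE q L ((JqIso q L).inv.hom F)
  rw [JqIso_hom_inv] at h1
  have h2 := Fermat.Agent.S55.CycloRecip37.TotalSys.JqIsoE_hom_inv q L ((JqIso q L).inv.hom F)
  rw [← h1] at h2
  exact h2.symm

/-- the definition of `ZqIso`, as an equation. -/
lemma ZqIso_def : ZLayer.ZqIso q L =
    CoindSurj.coindCompIso (resE q L) (jE q L) (Rep.trivial ℤ (Gq q) ℤ) (ZLayer.ZE q L) LinearMap.id
      (fun _ _ => rfl) (resE_surjective q L) Function.injective_id (fun a _ => ⟨a, rfl⟩) ≪≫
    eqToIso (congrArg (fun φ => Rep.coind φ (Rep.trivial ℤ (Gq q) ℤ)) (jE_comp_resE q L)) := by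
  delta ZLayer.ZqIso
  rfl

lemma ZqIso_hom_eq (f : (Rep.coind (jE q L) (ZLayer.ZE q L)).V) :
    (ZLayer.ZqIso q L).hom.hom f =
      (eqToIso (congrArg (fun φ => Rep.coind φ (Rep.trivial ℤ (Gq q) ℤ))
        (jE_comp_resE q L))).hom.hom
        ((CoindSurj.coindCompIso (resE q L) (jE q L) (Rep.trivial ℤ (Gq q) ℤ) (ZLayer.ZE q L)
          LinearMap.id (fun _ _ => rfl) (resE_surjective q L) Function.injective_id
          (fun a _ => ⟨a, rfl⟩)).hom.hom f) := by
  have h1 : (ZLayer.ZqIso q L).hom.hom f =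
      (CoindSurj.coindCompIso (resE q L) (jE q L) (Rep.trivial ℤ (Gq q) ℤ) (ZLayer.ZE q L)
          LinearMap.id (fun _ _ => rfl) (resE_surjective q L) Function.injective_id
          (fun a _ => ⟨a, rfl⟩) ≪≫
      eqToIso (congrArg (fun φ => Rep.coind φ (Rep.trivial ℤ (Gq q) ℤ))
        (jE_comp_resE q L))).hom.hom f := by
    rw [ZqIso_def]
  exact h1.trans (trans_hom_apply _ _ _)

/-- **`ZqIso` on elements**: it does nothing on the underlying functions. -/
lemma ZqIso_hom_apply (f : (Rep.coind (jE q L) (ZLayer.ZE q L)).V) (g : GalL L) :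
    ((ZLayer.ZqIso q L).hom.hom f).1 g = f.1 g := by
  have h2 := eqToIso_coind_hom_apply (Rep.trivial ℤ (Gq q) ℤ) (jE_comp_resE q L)
    ((CoindSurj.coindCompIso (resE q L) (jE q L) (Rep.trivial ℤ (Gq q) ℤ) (ZLayer.ZE q L)
      LinearMap.id (fun _ _ => rfl) (resE_surjective q L) Function.injective_id
      (fun a _ => ⟨a, rfl⟩)).hom.hom f) g
  have h3 := CoindSurj.coindCompIso_hom_apply (resE q L) (jE q L) (Rep.trivial ℤ (Gq q) ℤ)
    (ZLayer.ZE q L) LinearMap.id (fun _ _ => rfl) (resE_surjective q L) Function.injective_id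
    (fun a _ => ⟨a, rfl⟩) f g
  rw [ZqIso_hom_eq]
  exact h2.trans h3

lemma ZqIso_hom_inv (F : (Fermat.Agent.S55.IdeleVal44.Zq L q).V) :
    (ZLayer.ZqIso q L).hom.hom ((ZLayer.ZqIso q L).inv.hom F) = F :=
  iso_hom_inv_apply (ZLayer.ZqIso q L) F

/-- **`ZqIso⁻¹` on elements**. -/
lemma ZqIso_inv_apply (F : (Fermat.Agent.S55.IdeleVal44.Zq L q).V) (g : GalL L) :
    ((ZLayer.ZqIso q L).inv.hom F).1 g = F.1 g := by
  rw [← ZqIso_hom_apply, ZqIso_hom_inv]

end Fermat.Agent.S55.Idele73.LocalApply
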