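/-
S55 / 15-IDELE (helper73): for `S ⊆ T` the Herbrand quotient of every cyclic layer of
`JS L S × ⨁_{ℓ ∈ T ∖ S} Zq L ℓ` equals that of `JS L T` (the comparison used by the first
inequality: `q(A^N) = q(J_T^N)`).
-/
import Mathlib
import Fermat.Agent.S55.Idele73.PairProd

set_option autoImplicit false
set_option linter.unusedSectionVars false

namespace Fermat.Agent.S55.Idele73.PairST

open CategoryTheory Basic Local Components LayerJq LocalG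
open Fermat.Agent.S55.Herbrand54 Fermat.Agent.S55.HerbrandCyclic54 Fermat.Agent.S55.HerbrandHcyc54
open Fermat.Agent.S55.HerbrandRep54 Fermat.Agent.S55.Adapt77.HcycGlue
open Fermat.Agent.S55.IdeleVal44

attribute [local instance] Fermat.Agent.S55.IdeleVal44.factPrimes44

variable (L : IntermediateField ℚ Qbar) [Normal ℚ L] [FiniteDimensional ℚ L]
variable (H : Subgroup (GalL L)) (N : Subgroup H) [N.Normal]

/-- the local factor `c ℓ = ∏_{x ∈ D_ℓ\G/H} |Gal(K'_w/K_v)|` with a fixed (chosen) system of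
representatives. -/
noncomputable def cLoc (ℓ : Nat.Primes) : ℕ :=
  ∏ x : (Mackey.exists_isRepr (jE ℓ.1 L) H).choose,
    Nat.card (Dx ℓ.1 L H x ⧸ MxJ ℓ.1 L H N x)

lemma cLoc_ne_zero (ℓ : Nat.Primes) : cLoc L H N ℓ ≠ 0 := by
  apply Finset.prod_ne_zero_iff.2
  intro x _
  exact Nat.card_pos.ne'

variable [Fintype (H ⧸ N)] (g : H ⧸ N) (hg : ∀ y, y ∈ Subgroup.zpowers g)

include hg in
/-- `q(H/N, (Jq)^N) = c ℓ`. -/
theorem layerPair_Jq_cLoc (ℓ : Nat.Primes) :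
    (layerPair (Jq ℓ.1 L) H N g).IsDefined ∧
      (layerPair (Jq ℓ.1 L) H N g).q = (cLoc L H N ℓ : ℚ) :=
  PairJq.layerPair_Jq ℓ.1 L H N g hg (Mackey.exists_isRepr (jE ℓ.1 L) H).choose_spec

include hg in
/-- `q(H/N, (Zq)^N) = c ℓ`. -/
theorem layerPair_Zq_cLoc (ℓ : Nat.Primes) :
    (layerPair (Zq L ℓ.1) H N g).IsDefined ∧
      (layerPair (Zq L ℓ.1) H N g).q = (cLoc L H N ℓ : ℚ) :=
  ZLayer.layerPair_Zq ℓ.1 L H N g hg (Mackey.exists_isRepr (jE ℓ.1 L) H).choose_spec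

include hg in
/-- `q(H/N, (JS L T)^N) = ∏_{ℓ ∈ T} c ℓ`. -/
theorem layerPair_JS_cLoc (T : Finset Nat.Primes) :
    (layerPair (JS L T) H N g).IsDefined ∧
      (layerPair (JS L T) H N g).q = ((∏ ℓ ∈ T, cLoc L H N ℓ : ℕ) : ℚ) := by
  have h := PairJq.layerPair_JS L H N T g hg
    (fun q => (Mackey.exists_isRepr (jE q.1.1 L) H).choose)
    (fun q => (Mackey.exists_isRepr (jE q.1.1 L) H).choose_spec)
  refine ⟨h.1, ?_⟩
  rw [h.2]
  congr 1
  exact (Finset.prod_coe_sort T (fun ℓ => cLoc L H N ℓ))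

include hg in
/-- `q(H/N, (JS L S × ⨁_{ℓ ∈ T ∖ S} Zq L ℓ)^N) = ∏_{ℓ ∈ T} c ℓ` for `S ⊆ T`. -/
theorem layerPair_JS_IT_cLoc (S T : Finset Nat.Primes) (hST : S ⊆ T) :
    (layerPair (prodRep (JS L S) (dsRep (fun ℓ : InS (T \ S) => Zq L ℓ.1.1))) H N g).IsDefined ∧
      (layerPair (prodRep (JS L S) (dsRep (fun ℓ : InS (T \ S) => Zq L ℓ.1.1))) H N g).q =
        ((∏ ℓ ∈ T, cLoc L H N ℓ : ℕ) : ℚ) := by
  have h := PairProd.layerPair_JS_dsZq L H N (fun ℓ : InS (T \ S) => ℓ.1.1) S g hg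
    (fun q => (Mackey.exists_isRepr (jE q.1.1 L) H).choose)
    (fun q => (Mackey.exists_isRepr (jE q.1.1 L) H).choose_spec)
    (fun ℓ => (Mackey.exists_isRepr (jE ℓ.1.1 L) H).choose)
    (fun ℓ => (Mackey.exists_isRepr (jE ℓ.1.1 L) H).choose_spec)
  refine ⟨h.1, ?_⟩
  rw [h.2]
  congr 1
  have h1 : (∏ q : InS S, ∏ x : ((Mackey.exists_isRepr (jE q.1.1 L) H).choose : Finset (GalL L)),
      Nat.card (Dx q.1.1 L H x ⧸ MxJ q.1.1 L H N x)) = ∏ ℓ ∈ S, cLoc L H N ℓ :=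
    Finset.prod_coe_sort S (fun ℓ => cLoc L H N ℓ)
  have h2 : (∏ ℓ : InS (T \ S),
      ∏ x : ((Mackey.exists_isRepr (jE ℓ.1.1 L) H).choose : Finset (GalL L)),
      Nat.card (Dx ℓ.1.1 L H x ⧸ MxJ ℓ.1.1 L H N x)) = ∏ ℓ ∈ T \ S, cLoc L H N ℓ :=
    Finset.prod_coe_sort (T \ S) (fun ℓ => cLoc L H N ℓ)
  rw [h1, h2, mul_comm]
  exact Finset.prod_sdiff hST

include hg in
/-- **`q(A^N) = q(J_T^N)`** for `A = JS L S × ⨁_{ℓ ∈ T ∖ S} Zq L ℓ`, `S ⊆ T`. -/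
theorem layerPair_JS_IT_q_eq (S T : Finset Nat.Primes) (hST : S ⊆ T) :
    (layerPair (prodRep (JS L S) (dsRep (fun ℓ : InS (T \ S) => Zq L ℓ.1.1))) H N g).q =
      (layerPair (JS L T) H N g).q := by
  rw [(layerPair_JS_IT_cLoc L H N g hg S T hST).2, (layerPair_JS_cLoc L H N g hg T).2]

end Fermat.Agent.S55.Idele73.PairST
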